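import Fermat.Agent.S36.Norm.General
import Fermat.Agent.ES.B.HeckeNorm

/-!
# S36/Norm: the degeneracy maps `dg N M e : F_N → F_M`, `f(q) ↦ f(q^e)` (`e N ∣ M`)
-/

set_option autoImplicit false
set_option linter.style.haveILetI false

open AlgebraicCurve ModularCurve
open scoped IntermediateField

namespace Fermat.Agent.S36.Norm

open Fermat.Agent.ES Fermat.Agent.S24

noncomputable section

/-- `q ↦ q^e` as a `ℚ̄`-algebra endomorphism of `ℚ̄((q))`. -/
def VqAlg (e : ℕ) [NeZero e] : LaurentSeries Qb →ₐ[Qb] LaurentSeries Qb :=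
  { qExpand Qb e with
    commutes' := fun a => by
      show qExpand Qb e (algebraMap Qb (LaurentSeries Qb) a) = algebraMap Qb (LaurentSeries Qb) a
      rw [algebraMap_laurentSeries_eq_single, qExpand_single, mul_zero] }

@[simp]
theorem VqAlg_apply (e : ℕ) [NeZero e] (x : LaurentSeries Qb) : VqAlg e x = qExpand Qb e x := rfl

theorem Vq_jSer (e d : ℕ) [NeZero e] [NeZero d] : qExpand Qb e (jSer d) = jSer (e * d) := by
  show qExpand Qb e (coeffEmb Kb (qExpand ℚ d jq)) = coeffEmb Kb (qExpand ℚ (e * d) jq)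
  rw [← qExpand_qExpand]
  exact (coeffMap_qExpand _ _ _).symm

theorem Vq_mem {N M e : ℕ} [NeZero N] [NeZero e] (h : e * N ∣ M) {x : LaurentSeries Qb}
    (hx : x ∈ modularFunctionFieldBar N) : qExpand Qb e x ∈ modularFunctionFieldBar M := by
  have h1 : (modularFunctionFieldBar N).map (VqAlg e) ≤ modularFunctionFieldBar M := by
    rw [Gen.FN_eq_adjoin N, IntermediateField.adjoin_map, IntermediateField.adjoin_le_iff]
    rintro _ ⟨_, ⟨d, rfl⟩, rfl⟩
    rw [VqAlg_apply, Vq_jSer]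
    exact jSer_mem M (e * d.1) ((mul_dvd_mul_left e d.2).trans h)
  exact h1 ⟨x, hx, rfl⟩

/-- The degeneracy map `f(q) ↦ f(q^e)` from level `N` to level `M`, `e N ∣ M`. -/
def dg (N M e : ℕ) [NeZero N] [NeZero e] (h : e * N ∣ M) : FF N →ₐ[Qb] FF M where
  toFun f := ⟨qExpand Qb e (f : LaurentSeries Qb), Vq_mem h f.2⟩
  map_one' := Subtype.ext (map_one (qExpand Qb e))
  map_mul' _ _ := Subtype.ext (map_mul (qExpand Qb e) _ _)
  map_zero' := Subtype.ext (map_zero (qExpand Qb e))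
  map_add' _ _ := Subtype.ext (map_add (qExpand Qb e) _ _)
  commutes' a := Subtype.ext ((VqAlg e).commutes a)

@[simp]
theorem coe_dg (N M e : ℕ) [NeZero N] [NeZero e] (h : e * N ∣ M) (f : FF N) :
    ((dg N M e h f : FF M) : LaurentSeries Qb) = qExpand Qb e (f : LaurentSeries Qb) := rfl

theorem coe_dg_one (N M : ℕ) [NeZero N] (h : 1 * N ∣ M) (f : FF N) :
    ((dg N M 1 h f : FF M) : LaurentSeries Qb) = (f : LaurentSeries Qb) := by
  rw [coe_dg, qExpand_one_apply]

theorem dg_jF (N M e d : ℕ) [NeZero N] [NeZero e] [NeZero d] (h : e * N ∣ M) (hd : d ∣ N) :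
    dg N M e h (jF N d hd) = jF M (e * d) ((mul_dvd_mul_left e hd).trans h) :=
  Subtype.ext (Vq_jSer e d)

theorem dg_dg (N M M' e e' : ℕ) [NeZero N] [NeZero M] [NeZero e] [NeZero e'] (h : e * N ∣ M)
    (h' : e' * M ∣ M') (h'' : e' * e * N ∣ M') (f : FF N) :
    dg M M' e' h' (dg N M e h f) = dg N M' (e' * e) h'' f :=
  Subtype.ext (qExpand_qExpand e e' _)

theorem dg_congr (N M e e' : ℕ) [NeZero N] [NeZero e] [NeZero e'] (he : e = e') (h : e * N ∣ M)
    (h' : e' * N ∣ M) : dg N M e h = dg N M e' h' := by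
  subst he; rfl

theorem dg_eq_alpha (N ℓ : ℕ) [NeZero N] [NeZero ℓ] (h : 1 * N ∣ N * ℓ) :
    dg N (N * ℓ) 1 h = heckeAlphaBar Qb N ℓ := by
  refine AlgHom.ext fun f => ?_
  apply Subtype.ext
  rw [coe_dg_one, coe_heckeAlphaBar]

theorem dg_eq_beta (N ℓ : ℕ) [NeZero N] [NeZero ℓ] (h : ℓ * N ∣ N * ℓ) :
    dg N (N * ℓ) ℓ h = heckeBetaBar Qb N ℓ := rfl

/-- Galois equivariance. -/
theorem galF_dg (N M e : ℕ) [NeZero N] [NeZero e] (h : e * N ∣ M) (σ : GQ) (f : FF N) :
    galF M σ (dg N M e h f) = dg N M e h (galF N σ f) := by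
  apply Subtype.ext
  rw [coe_galF, coe_dg, coe_dg, coe_galF]
  exact coeffMap_qExpand _ _ _

/-- finiteness -/
theorem finHom_dg (N M e : ℕ) [NeZero N] [NeZero M] [NeZero e] (h : e * N ∣ M) :
    FinHom (dg N M e h).toRingHom := by
  haveI := S24.finiteDimensional_FN M
  have htr : Transcendental Qb (dg N M e h (S24.jN N)) := fun h' =>
    S24.transcendental_jN N
      ((isAlgebraic_algHom_iff (dg N M e h) (dg N M e h).injective).mp h')
  haveI : FiniteDimensional Qb⟮dg N M e h (S24.jN N)⟯ (FF M) :=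
    S24.FF.finiteDimensional_of_transcendental Qb (S24.jN M) htr
  exact (H1Degree.finite_and_finrank (dg N M e h) (S24.jN N)).1

/-- degree for `e = 1`. -/
theorem degHom_dg_one (N M : ℕ) [NeZero N] [NeZero M] (h : 1 * N ∣ M) :
    dedekindPsi N * degHom (dg N M 1 h).toRingHom = dedekindPsi M := by
  have hj : dg N M 1 h (S24.jN N) = S24.jN M := Subtype.ext (coe_dg_one N M h _)
  haveI : FiniteDimensional Qb⟮dg N M 1 h (S24.jN N)⟯ (FF M) := by
    rw [hj]; exact S24.finiteDimensional_FN M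
  have h0 := (H1Degree.finite_and_finrank (dg N M 1 h) (S24.jN N)).2
  have h1 : Module.finrank Qb⟮S24.jN N⟯ (FF N) = dedekindPsi N :=
    (S24.finrank_FN N).trans (Gamma0Comb.index_Gamma0 N)
  have h2 : Module.finrank Qb⟮dg N M 1 h (S24.jN N)⟯ (FF M) = dedekindPsi M := by
    rw [hj]
    exact (S24.finrank_FN M).trans (Gamma0Comb.index_Gamma0 M)
  rw [h1, h2] at h0
  exact h0

end

end Fermat.Agent.S36.Norm
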