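import Mathlib

/-!
# S36/Norm: abstract lemmas on field norms along ring homomorphisms

* `normHom φ : E →* F` : the norm of `E` over `F` along `φ : F →+* E`
* `normHom_comp`       : transitivity
* `normHom_equiv`      : transport along isomorphisms of pairs
* `normHom_map`        : `N (φ x) = x ^ [E : F]`
* `normHom_baseChange` : base change in a square `F → E`, `F → F₁`, `F₁ → E₁`, `E → E₁` with
  `[E₁ : F₁] = [E : F]` and `E₁ = F₁ · E`.
-/

set_option autoImplicit false
set_option linter.style.haveILetI false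

namespace Fermat.Agent.S36.Norm

noncomputable section

variable {F E : Type*} [Field F] [Field E]

/-- The norm of `E` over `F` along `φ`. -/
def normHom (φ : F →+* E) : E →* F :=
  letI := φ.toAlgebra
  Algebra.norm F

/-- The degree of `E` over `F` along `φ`. -/
def degHom (φ : F →+* E) : ℕ :=
  letI := φ.toAlgebra
  Module.finrank F E

/-- `E` is finite over `F` along `φ`. -/
def FinHom (φ : F →+* E) : Prop :=
  letI := φ.toAlgebra
  Module.Finite F E

theorem normHom_map (φ : F →+* E) (x : F) : normHom φ (φ x) = x ^ degHom φ := by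
  letI := φ.toAlgebra
  exact Algebra.norm_algebraMap x

theorem normHom_ne_zero (φ : F →+* E) (hφ : FinHom φ) {x : E} (hx : x ≠ 0) :
    normHom φ x ≠ 0 := by
  letI := φ.toAlgebra
  haveI : Module.Finite F E := hφ
  exact Algebra.norm_ne_zero_iff.mpr hx

theorem normHom_comp {G : Type*} [Field G] (φ : F →+* E) (ψ : E →+* G) (x : G) :
    normHom φ (normHom ψ x) = normHom (ψ.comp φ) x := by
  letI := φ.toAlgebra
  letI := ψ.toAlgebra
  letI := (ψ.comp φ).toAlgebra
  haveI : IsScalarTower F E G := IsScalarTower.of_algebraMap_eq fun _ => rfl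
  exact Algebra.norm_norm

theorem degHom_comp {G : Type*} [Field G] (φ : F →+* E) (ψ : E →+* G) :
    degHom (ψ.comp φ) = degHom φ * degHom ψ := by
  letI := φ.toAlgebra
  letI := ψ.toAlgebra
  letI := (ψ.comp φ).toAlgebra
  haveI : IsScalarTower F E G := IsScalarTower.of_algebraMap_eq fun _ => rfl
  exact (Module.finrank_mul_finrank F E G).symm

theorem FinHom.comp {G : Type*} [Field G] {φ : F →+* E} {ψ : E →+* G} (hφ : FinHom φ)
    (hψ : FinHom ψ) : FinHom (ψ.comp φ) := by
  letI := φ.toAlgebra
  letI := ψ.toAlgebra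
  letI := (ψ.comp φ).toAlgebra
  haveI : IsScalarTower F E G := IsScalarTower.of_algebraMap_eq fun _ => rfl
  haveI : Module.Finite F E := hφ
  haveI : Module.Finite E G := hψ
  exact Module.Finite.trans E G

theorem FinHom.of_comp {G : Type*} [Field G] {φ : F →+* E} {ψ : E →+* G}
    (h : FinHom (ψ.comp φ)) : FinHom ψ := by
  letI := φ.toAlgebra
  letI := ψ.toAlgebra
  letI := (ψ.comp φ).toAlgebra
  haveI : IsScalarTower F E G := IsScalarTower.of_algebraMap_eq fun _ => rfl
  haveI : Module.Finite F G := h
  exact Module.Finite.of_restrictScalars_finite F E G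

theorem degHom_pos {φ : F →+* E} (hφ : FinHom φ) : 0 < degHom φ := by
  letI := φ.toAlgebra
  haveI : Module.Finite F E := hφ
  exact Module.finrank_pos

section Equiv

variable {F' E' : Type*} [Field F'] [Field E']

theorem normHom_equiv (φ : F →+* E) (φ' : F' →+* E') (e₁ : F ≃+* F') (e₂ : E ≃+* E')
    (h : ∀ x, φ' (e₁ x) = e₂ (φ x)) (x : E) :
    e₁ (normHom φ x) = normHom φ' (e₂ x) := by
  letI := φ.toAlgebra
  letI := φ'.toAlgebra
  have := Algebra.norm_eq_of_equiv_equiv (A₁ := F) (B₁ := E) (A₂ := F') (B₂ := E') e₁ e₂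
    (RingHom.ext h) x
  show e₁ (Algebra.norm F x) = Algebra.norm F' (e₂ x)
  rw [this, RingEquiv.apply_symm_apply]

theorem degHom_equiv (φ : F →+* E) (φ' : F' →+* E') (e₁ : F ≃+* F') (e₂ : E ≃+* E')
    (h : ∀ x, φ' (e₁ x) = e₂ (φ x)) : degHom φ = degHom φ' := by
  letI := φ.toAlgebra
  letI := φ'.toAlgebra
  exact Algebra.finrank_eq_of_equiv_equiv e₁ e₂ (RingHom.ext h)

theorem FinHom.equiv {φ : F →+* E} {φ' : F' →+* E'} (e₁ : F ≃+* F') (e₂ : E ≃+* E')
    (h : ∀ x, φ' (e₁ x) = e₂ (φ x)) (hφ : FinHom φ) : FinHom φ' := by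
  letI := φ.toAlgebra
  letI := φ'.toAlgebra
  haveI : Module.Finite F E := hφ
  exact Module.Finite.of_equiv_equiv e₁ e₂ (RingHom.ext h)

end Equiv

section BaseChange

variable {F₁ E₁ : Type*} [Field F₁] [Field E₁]

/-- **Base change of norms.** -/
theorem normHom_baseChange (a : F →+* E) (b : F →+* F₁) (a₁ : F₁ →+* E₁) (b₁ : E →+* E₁)
    (hcomm : ∀ x, a₁ (b x) = b₁ (a x)) (ha : FinHom a) (ha₁ : FinHom a₁)
    (hdeg : degHom a₁ = degHom a)
    (hgen : ∀ C : Subfield E₁, (∀ x, a₁ x ∈ C) → (∀ y, b₁ y ∈ C) → C = ⊤) (x : E) :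
    normHom a₁ (b₁ x) = b (normHom a x) := by
  classical
  letI := a.toAlgebra
  letI := a₁.toAlgebra
  haveI : Module.Finite F E := ha
  haveI : Module.Finite F₁ E₁ := ha₁
  have hsm : ∀ (c : F) (y : E), b₁ (c • y) = b c • b₁ y := by
    intro c y
    rw [Algebra.smul_def, Algebra.smul_def, map_mul]
    congr 1
    exact (hcomm c).symm
  let bs := Module.finBasis F E
  let v : Fin (Module.finrank F E) → E₁ := fun i => b₁ (bs i)
  have hb₁ : ∀ y : E, b₁ y = ∑ i, b (bs.repr y i) • v i := by
    intro y
    conv_lhs => rw [← bs.sum_repr y]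
    rw [map_sum]
    exact Finset.sum_congr rfl fun i _ => hsm _ _
  -- the span of `v` is a subalgebra
  let S : Submodule F₁ E₁ := Submodule.span F₁ (Set.range v)
  have hbS : ∀ y : E, b₁ y ∈ S := by
    intro y
    rw [hb₁]
    exact Submodule.sum_mem _ fun i _ => Submodule.smul_mem _ _ (Submodule.subset_span ⟨i, rfl⟩)
  have hmul : ∀ p ∈ S, ∀ q ∈ S, p * q ∈ S := by
    intro p hp q hq
    induction hp using Submodule.span_induction with
    | mem p hp =>
      obtain ⟨i, rfl⟩ := hp
      induction hq using Submodule.span_induction with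
      | mem q hq =>
        obtain ⟨j, rfl⟩ := hq
        show b₁ (bs i) * b₁ (bs j) ∈ S
        rw [← map_mul]
        exact hbS _
      | zero => rw [mul_zero]; exact S.zero_mem
      | add q q' _ _ h h' => rw [mul_add]; exact S.add_mem h h'
      | smul c q _ h => rw [mul_smul_comm]; exact S.smul_mem c h
    | zero => rw [zero_mul]; exact S.zero_mem
    | add p p' _ _ h h' => rw [add_mul]; exact S.add_mem h h'
    | smul c p _ h => rw [smul_mul_assoc]; exact S.smul_mem c h
  have hone : (1 : E₁) ∈ S := by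
    have := hbS 1
    rwa [map_one] at this
  let A : Subalgebra F₁ E₁ := S.toSubalgebra hone (fun p q hp hq => hmul p hp q hq)
  have hAfield : IsField A := Subalgebra.isField_of_algebraic A
  let C : Subfield E₁ :=
    { A.toSubring with
      inv_mem' := by
        intro z hz
        by_cases h0 : z = 0
        · subst h0
          rw [inv_zero]
          exact hz
        · obtain ⟨y, hy⟩ := hAfield.mul_inv_cancel (a := (⟨z, hz⟩ : A))
            (fun h => h0 (congrArg Subtype.val h))
          have h1 : z * (y : E₁) = 1 := congrArg Subtype.val hy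
          have h2 : z⁻¹ = (y : E₁) := (eq_inv_of_mul_eq_one_right h1).symm
          rw [h2]
          exact y.2 }
  have hC : C = ⊤ := by
    apply hgen
    · intro z
      have : a₁ z = z • (1 : E₁) := by rw [Algebra.smul_def, mul_one]; rfl
      rw [this]
      exact S.smul_mem z hone
    · exact hbS
  have htop : ⊤ ≤ Submodule.span F₁ (Set.range v) := by
    intro z _
    have : z ∈ C := by rw [hC]; trivial
    exact this
  let B := basisOfTopLeSpanOfCardEqFinrank v htop (by rw [Fintype.card_fin]; exact hdeg.symm)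
  have hB : ∀ i, B i = v i := fun i => by
    rw [coe_basisOfTopLeSpanOfCardEqFinrank]
  show Algebra.norm F₁ (b₁ x) = b (Algebra.norm F x)
  rw [Algebra.norm_eq_matrix_det B, Algebra.norm_eq_matrix_det bs, RingHom.map_det]
  congr 1
  ext i j
  rw [Algebra.leftMulMatrix_eq_repr_mul, RingHom.mapMatrix_apply, Matrix.map_apply,
    Algebra.leftMulMatrix_eq_repr_mul, hB]
  show B.repr (b₁ x * b₁ (bs j)) i = _
  rw [← map_mul, hb₁]
  have : ∑ k, b (bs.repr (x * bs j) k) • v k = ∑ k, b (bs.repr (x * bs j) k) • B k :=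
    Finset.sum_congr rfl fun k _ => by rw [hB]
  rw [this, B.repr_sum_self]

end BaseChange

section Embeddings

/-- **The norm is the product over a full family of embeddings** (into any field `Ω`). -/
theorem normHom_eq_prod {Ω ι : Type*} [Field Ω] [Fintype ι] [CharZero F] (φ : F →+* E)
    (hφ : FinHom φ) (β : F →+* Ω) (τ : ι → E →+* Ω) (hτ : ∀ i x, τ i (φ x) = β x)
    (hinj : Function.Injective τ) (hcard : Fintype.card ι = degHom φ) (x : E) :
    β (normHom φ x) = ∏ i, τ i x := by
  classical
  letI := φ.toAlgebra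
  haveI : FiniteDimensional F E := hφ
  let io : Ω →+* AlgebraicClosure Ω := algebraMap Ω (AlgebraicClosure Ω)
  letI : Algebra F (AlgebraicClosure Ω) := (io.comp β).toAlgebra
  let τ' : ι → (E →ₐ[F] AlgebraicClosure Ω) := fun i =>
    { io.comp (τ i) with
      commutes' := fun y => congrArg io (hτ i y) }
  have hinj' : Function.Injective τ' := by
    intro i j hij
    apply hinj
    refine RingHom.ext fun y => ?_
    exact io.injective (AlgHom.congr_fun hij y)
  have hcard' : Fintype.card ι = Fintype.card (E →ₐ[F] AlgebraicClosure Ω) := by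
    rw [AlgHom.card]
    exact hcard
  have hbij : Function.Bijective τ' := (Fintype.bijective_iff_injective_and_card _).mpr ⟨hinj', hcard'⟩
  have hnorm := Algebra.norm_eq_prod_embeddings F (AlgebraicClosure Ω) x
  rw [← Fintype.prod_bijective τ' hbij (fun i => τ' i x) _ (fun _ => rfl)] at hnorm
  apply io.injective
  rw [map_prod]
  exact hnorm

end Embeddings

end

end Fermat.Agent.S36.Norm
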