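import Fermat.Agent.S36.Norm.Levels

/-!
# S36/Norm: the Atkin–Lehner involution `w_Q` of the function field of `X₀(Q N')`, `(Q, N') = 1`

`w (j(q^{x d})) = j(q^{y d})` for `x y = Q`, `d ∣ N'`.  For `N' = 1` this is the Fricke involution.
-/

set_option autoImplicit false

open AlgebraicCurve ModularCurve UpperHalfPlane
open scoped MatrixGroups

namespace Fermat.Agent.S36.Norm

open Fermat.Agent.ES Fermat.Agent.S24 Fermat.Agent.S24.Hermite Fermat.Agent.ES.AtkinLehner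

noncomputable section

/-- the swap `x d ↦ (Q / x) d` on the divisors of `Q N'`. -/
def swapQ (Q N' : ℕ) (d : Dv (Q * N')) : Dv (Q * N') :=
  ⟨Q / Nat.gcd d.1 Q * Nat.gcd d.1 N',
    mul_dvd_mul (Nat.div_dvd_of_dvd (Nat.gcd_dvd_right _ _)) (Nat.gcd_dvd_right _ _)⟩

theorem swapQ_val (Q N' x y d : ℕ) (hQ : Q ≠ 0) (hcop : Nat.Coprime Q N') (hxy : x * y = Q)
    (hd : d ∣ N') (h : x * d ∣ Q * N') : (swapQ Q N' ⟨x * d, h⟩).1 = y * d := by
  have hx : x ∣ Q := ⟨y, hxy.symm⟩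
  have hx0 : 0 < x := Nat.pos_of_ne_zero (fun h0 => hQ (by rw [← hxy, h0, zero_mul]))
  have h1 : Nat.gcd (x * d) Q = x := by
    rw [Nat.Coprime.gcd_mul_right_cancel x (Nat.Coprime.coprime_dvd_left hd hcop.symm)]
    exact Nat.gcd_eq_left hx
  have h2 : Nat.gcd (x * d) N' = d := by
    rw [Nat.Coprime.gcd_mul_left_cancel d (Nat.Coprime.coprime_dvd_left hx hcop)]
    exact Nat.gcd_eq_left hd
  show Q / Nat.gcd (x * d) Q * Nat.gcd (x * d) N' = y * d
  rw [h1, h2, ← hxy, Nat.mul_div_cancel_left _ hx0]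

theorem mulH_surjective (Q : ℕ) [NeZero Q] : Function.Surjective (mulH Q) := by
  intro z
  have hQ : (0 : ℝ) < Q := by exact_mod_cast Nat.pos_of_ne_zero (NeZero.ne Q)
  refine ⟨⟨(z : ℂ) / Q, ?_⟩, ?_⟩
  · have : ((z : ℂ) / (Q : ℂ)).im = z.im / Q := by
      have := Complex.div_ofReal_im (z : ℂ) (Q : ℝ)
      simp
    rw [this]
    exact div_pos z.im_pos hQ
  · apply UpperHalfPlane.ext
    rw [Hermite.coe_mulH]
    have hQC : (Q : ℂ) ≠ 0 := by exact_mod_cast NeZero.ne Q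
    show (Q : ℂ) * ((z : ℂ) / Q) = z
    field_simp

theorem exists_atkinLehnerQ (Q N' : ℕ) [NeZero Q] [NeZero N'] (hcop : Nat.Coprime Q N') :
    ∃ w : FF (Q * N') →ₐ[Qb] FF (Q * N'),
      ∀ (x y d : ℕ) [NeZero (x * d)] [NeZero (y * d)] (_ : x * y = Q) (_ : d ∣ N')
        (h : x * d ∣ Q * N') (h' : y * d ∣ Q * N'),
        w (jF (Q * N') (x * d) h) = jF (Q * N') (y * d) h' := by
  classical
  have : NeZero (Q * N') := ⟨Nat.mul_ne_zero (NeZero.ne Q) (NeZero.ne N')⟩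
  set s := swapQ Q N' with hs
  have hcop' : IsCoprime (Q : ℤ) (N' : ℤ) := by
    rw [Nat.isCoprime_iff_coprime]
    exact hcop
  obtain ⟨a, b, hab⟩ := hcop'
  obtain ⟨γ₀, hγ₀⟩ := exists_SL !![1, -b; (N' : ℤ), Q * a] (by
    rw [Matrix.det_fin_two_of]; linarith)
  have g00 : γ₀ 0 0 = 1 := by simp [hγ₀]
  have g01 : γ₀ 0 1 = -b := by simp [hγ₀]
  have g10 : γ₀ 1 0 = N' := by simp [hγ₀]
  have g11 : γ₀ 1 1 = Q * a := by simp [hγ₀]
  let W : ℍ → ℍ := fun τ => γ₀ • mulH Q τ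
  have hWsurj : Function.Surjective W := by
    intro z
    obtain ⟨τ, hτ⟩ := mulH_surjective Q (γ₀⁻¹ • z)
    exact ⟨τ, by show γ₀ • mulH Q τ = z; rw [hτ, smul_inv_smul]⟩
  have key : ∀ (d : Dv (Q * N')) (τ : ℍ), jd (s d).1 τ = jd d.1 (W τ) := by
    intro d τ
    set x := Nat.gcd d.1 Q with hx
    set d' := Nat.gcd d.1 N' with hd'
    have hxd : x * d' = d.1 := by
      rw [hx, hd', ← Nat.Coprime.gcd_mul d.1 hcop]
      exact Nat.gcd_eq_left d.2
    obtain ⟨y, hy⟩ : x ∣ Q := Nat.gcd_dvd_right _ _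
    obtain ⟨c, hc⟩ : d' ∣ N' := Nat.gcd_dvd_right _ _
    have hx0 : x ≠ 0 := fun h0 => NeZero.ne Q (by rw [hy, h0, zero_mul])
    have hy0 : y ≠ 0 := fun h0 => NeZero.ne Q (by rw [hy, h0, mul_zero])
    have hd0 : d' ≠ 0 := fun h0 => NeZero.ne N' (by rw [hc, h0, zero_mul])
    have hsd : (s d).1 = y * d' := by
      show Q / x * d' = y * d'
      rw [hy, Nat.mul_div_cancel_left _ (Nat.pos_of_ne_zero hx0)]
    have : NeZero (y * d') := ⟨Nat.mul_ne_zero hy0 hd0⟩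
    have : NeZero (x * d') := ⟨Nat.mul_ne_zero hx0 hd0⟩
    obtain ⟨γ₂, hγ₂⟩ := exists_SL !![(x : ℤ), -(d' * b); (c : ℤ), y * a] (by
      rw [Matrix.det_fin_two_of]
      have h1 : (Q : ℤ) = x * y := by exact_mod_cast hy
      have h2 : (N' : ℤ) = d' * c := by exact_mod_cast hc
      rw [h1, h2] at hab
      linarith)
    have k00 : γ₂ 0 0 = x := by simp [hγ₂]
    have k01 : γ₂ 0 1 = -(d' * b) := by simp [hγ₂]
    have k10 : γ₂ 1 0 = c := by simp [hγ₂]
    have k11 : γ₂ 1 1 = y * a := by simp [hγ₂]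
    rw [jd_congr hsd, jd_congr hxd.symm]
    have hm : mulH (x * d') (W τ) = γ₂ • mulH (y * d') τ := by
      apply UpperHalfPlane.ext
      have hden1 := SL_denom_ne_zero γ₀ (mulH Q τ)
      have hden2 := SL_denom_ne_zero γ₂ (mulH (y * d') τ)
      show ((mulH (x * d') (γ₀ • mulH Q τ) : ℍ) : ℂ) = _
      rw [Hermite.coe_mulH, coe_SL_smul, coe_SL_smul]
      rw [Hermite.coe_mulH] at hden1 hden2 ⊢
      rw [Hermite.coe_mulH]
      rw [g00, g01, g10, g11] at *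
      rw [k00, k01, k10, k11] at *
      have hQC : (Q : ℂ) = x * y := by exact_mod_cast hy
      have hNC : (N' : ℂ) = d' * c := by exact_mod_cast hc
      have hyC : (y : ℂ) ≠ 0 := by exact_mod_cast hy0
      have hxC : (x : ℂ) ≠ 0 := by exact_mod_cast hx0
      push_cast at hden1 hden2 ⊢
      rw [hQC, hNC] at hden1 ⊢
      have e1 : (d' : ℂ) * c * (x * y * τ) + x * y * a = x * (c * (y * d' * τ) + y * a) := by ring
      rw [e1] at hden1 ⊢
      have hden3 : (c : ℂ) * (y * d' * τ) + y * a ≠ 0 := right_ne_zero_of_mul hden1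
      field_simp
    unfold jd
    rw [hm, jfun_smul]
  have hev : ∀ (p : MvPolynomial (Dv (Q * N')) Kb) (τ : ℍ),
      phiH (Q * N') (MvPolynomial.rename s p) τ = phiH (Q * N') p (W τ) := by
    intro p τ
    have e1 : ∀ (q : MvPolynomial (Dv (Q * N')) Kb) (σ : ℍ),
        phiH (Q * N') q σ = MvPolynomial.aeval (fun d : Dv (Q * N') => jd d.1 σ) q := by
      intro q σ
      have := MvPolynomial.comp_aeval_apply (f := fun d : Dv (Q * N') => jd d.1)
        (Pi.evalAlgHom Kb (fun _ : ℍ => ℂ) σ) q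
      exact this
    have e2 : (fun d : Dv (Q * N') => jd d.1 τ) ∘ s = fun d : Dv (Q * N') => jd d.1 (W τ) := by
      funext d
      exact key d τ
    rw [e1, e1, MvPolynomial.aeval_rename, e2]
  obtain ⟨w, hw⟩ := exists_lift_FN (Q * N')
    ((phiF (Q * N')).comp (MvPolynomial.rename s)) (by
      intro p
      show phiF (Q * N') (MvPolynomial.rename s p) = 0 ↔ _
      rw [phiF_eq_zero_iff, phiF_eq_zero_iff]
      constructor
      · intro h
        funext z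
        obtain ⟨τ, rfl⟩ := hWsurj z
        rw [← hev, h]
        rfl
      · intro h
        funext τ
        rw [hev, h]
        rfl)
  have hwj : ∀ d : Dv (Q * N'), w (jF (Q * N') d.1 d.2) = jF (Q * N') (s d).1 (s d).2 := by
    intro d
    have := hw (MvPolynomial.X d)
    simpa [phiF] using this
  have jF_congr : ∀ (x y : ℕ) (_ : NeZero x) (_ : NeZero y) (hx : x ∣ Q * N') (hy : y ∣ Q * N'),
      x = y → jF (Q * N') x hx = jF (Q * N') y hy := by
    intro x y _ _ hx hy hxy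
    subst hxy
    rfl
  refine ⟨w, ?_⟩
  intro x y d _ _ hxy hd h h'
  have h3 := hwj ⟨x * d, h⟩
  rw [h3]
  apply jF_congr
  exact swapQ_val Q N' x y d (NeZero.ne Q) hcop hxy hd h

theorem jF_congr' (M : ℕ) {x y : ℕ} [NeZero x] [NeZero y] (hx : x ∣ M) (hy : y ∣ M)
    (hxy : x = y) : jF M x hx = jF M y hy := by
  subst hxy
  rfl

/-- the relation between `u, v ∣ Q N'` swapped by `w_Q`. -/
def ALRel (Q N' u v : ℕ) : Prop := ∃ x y d : ℕ, x * y = Q ∧ d ∣ N' ∧ u = x * d ∧ v = y * d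

theorem ALRel.symm {Q N' u v : ℕ} (h : ALRel Q N' u v) : ALRel Q N' v u := by
  obtain ⟨x, y, d, hxy, hd, hu, hv⟩ := h
  exact ⟨y, x, d, by rw [mul_comm, hxy], hd, hv, hu⟩

theorem exists_ALRel {Q N' u : ℕ} (hcop : Nat.Coprime Q N') (hu : u ∣ Q * N') :
    ∃ v, ALRel Q N' u v := by
  obtain ⟨y, hy⟩ : Nat.gcd u Q ∣ Q := Nat.gcd_dvd_right _ _
  refine ⟨y * Nat.gcd u N', Nat.gcd u Q, y, Nat.gcd u N', hy.symm, Nat.gcd_dvd_right _ _, ?_, rfl⟩
  rw [← Nat.Coprime.gcd_mul u hcop]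
  exact (Nat.gcd_eq_left hu).symm

theorem ALRel.dvd {Q N' u v : ℕ} (h : ALRel Q N' u v) : v ∣ Q * N' := by
  obtain ⟨x, y, d, hxy, hd, -, rfl⟩ := h
  exact mul_dvd_mul ⟨x, by rw [mul_comm, hxy]⟩ hd

theorem exists_AL (M Q N' : ℕ) [NeZero M] (hM : M = Q * N') (hcop : Nat.Coprime Q N') :
    ∃ w : FF M ≃ₐ[Qb] FF M,
      (∀ (u v : ℕ) [NeZero u] [NeZero v] (hu : u ∣ M) (hv : v ∣ M), ALRel Q N' u v →
        w (jF M u hu) = jF M v hv) ∧ ∀ f, w (w f) = f := by
  subst hM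
  have hQ : NeZero Q := ⟨fun h => NeZero.ne (Q * N') (by rw [h, zero_mul])⟩
  have hN' : NeZero N' := ⟨fun h => NeZero.ne (Q * N') (by rw [h, mul_zero])⟩
  obtain ⟨w, hw⟩ := exists_atkinLehnerQ Q N' hcop
  have hw' : ∀ (u v : ℕ) [NeZero u] [NeZero v] (hu : u ∣ Q * N') (hv : v ∣ Q * N'),
      ALRel Q N' u v → w (jF (Q * N') u hu) = jF (Q * N') v hv := by
    intro u v _ _ hu hv ⟨x, y, d, hxy, hd, hux, hvy⟩
    subst hux hvy
    exact hw x y d hxy hd hu hv
  have hww : ∀ f, w (w f) = f := by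
    have : w.comp w = AlgHom.id Qb _ := by
      apply algHom_ext_FN
      intro d
      obtain ⟨v, hv⟩ := exists_ALRel hcop d.2
      have hv0 : NeZero v := ⟨fun h0 => NeZero.ne (Q * N') (Nat.eq_zero_of_zero_dvd (h0 ▸ hv.dvd))⟩
      rw [AlgHom.comp_apply, hw' d.1 v d.2 hv.dvd hv, hw' v d.1 hv.dvd d.2 hv.symm]
      rfl
    exact fun f => AlgHom.congr_fun this f
  exact ⟨AlgEquiv.ofAlgHom w w (AlgHom.ext hww) (AlgHom.ext hww), hw', hww⟩

/-- The Atkin–Lehner involution `w_Q` at level `M = Q N'`, `(Q, N') = 1`. -/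
def AL (M Q N' : ℕ) [NeZero M] (hM : M = Q * N') (hcop : Nat.Coprime Q N') : FF M ≃ₐ[Qb] FF M :=
  (exists_AL M Q N' hM hcop).choose

theorem AL_jF (M Q N' : ℕ) [NeZero M] (hM : M = Q * N') (hcop : Nat.Coprime Q N')
    (u v : ℕ) [NeZero u] [NeZero v] (hu : u ∣ M) (hv : v ∣ M) (h : ALRel Q N' u v) :
    AL M Q N' hM hcop (jF M u hu) = jF M v hv :=
  (exists_AL M Q N' hM hcop).choose_spec.1 u v hu hv h

theorem AL_AL (M Q N' : ℕ) [NeZero M] (hM : M = Q * N') (hcop : Nat.Coprime Q N') (f : FF M) :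
    AL M Q N' hM hcop (AL M Q N' hM hcop f) = f :=
  (exists_AL M Q N' hM hcop).choose_spec.2 f

theorem galF_jF (M d : ℕ) [NeZero d] (hd : d ∣ M) (σ : GQ) : galF M σ (jF M d hd) = jF M d hd := by
  apply Subtype.ext
  rw [coe_galF]
  show coeffMap (σ : Qb →+* Qb) (coeffMap (algebraMap ℚ Qb) (qExpand ℚ d jq)) = coeffMap (algebraMap ℚ Qb) (qExpand ℚ d jq)
  ext k
  simp only [coeffMap_coeff]
  exact σ.commutes _

/-- A `ℚ̄`-algebra endomorphism of `F_M` which permutes the generators `j(q^d)` commutes with the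
Galois action. -/
theorem galF_comm_of_jF {M M' : ℕ} [NeZero M] (w : FF M →ₐ[Qb] FF M')
    (hw : ∀ d : Dv M, ∃ (v : ℕ) (_ : NeZero v) (hv : v ∣ M'), w (jF M d.1 d.2) = jF M' v hv)
    (σ : GQ) (f : FF M) : galF M' σ (w f) = w (galF M σ f) := by
  -- the conjugate of `w` by `σ` is `ℚ̄`-linear
  let w' : FF M →ₐ[Qb] FF M' :=
    { ((galF M' σ).symm : FF M' →+* FF M').comp
        ((w : FF M →+* FF M').comp (galF M σ : FF M →+* FF M)) with
      commutes' := by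
        intro c
        show (galF M' σ).symm (w (galF M σ (algebraMap Qb (FF M) c))) = algebraMap Qb (FF M') c
        have h1 : ∀ (L : ℕ) (c : Qb), galF L σ (algebraMap Qb (FF L) c) = algebraMap Qb (FF L) (σ c) := by
          intro L c
          apply Subtype.ext
          rw [coe_galF]
          show coeffMap (σ : Qb →+* Qb) (algebraMap Qb (LaurentSeries Qb) c)
            = algebraMap Qb (LaurentSeries Qb) (σ c)
          rw [algebraMap_laurentSeries_eq_single, algebraMap_laurentSeries_eq_single]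
          ext k
          rw [coeffMap_coeff]
          by_cases hk : k = 0
          · subst hk; simp
          · rw [HahnSeries.coeff_single_of_ne hk, HahnSeries.coeff_single_of_ne hk, map_zero]
        rw [h1, AlgHom.commutes, RingEquiv.symm_apply_eq, h1] }
  have hww : w' = w := by
    apply algHom_ext_FN
    intro d
    obtain ⟨v, _, hv, hwd⟩ := hw d
    show (galF M' σ).symm (w (galF M σ (jF M d.1 d.2))) = _
    rw [galF_jF, hwd, RingEquiv.symm_apply_eq, galF_jF]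
  have := AlgHom.congr_fun hww f
  have h2 : (galF M' σ).symm (w (galF M σ f)) = w f := this
  rw [← h2, RingEquiv.apply_symm_apply]

theorem galF_AL (M Q N' : ℕ) [NeZero M] (hM : M = Q * N') (hcop : Nat.Coprime Q N') (σ : GQ)
    (f : FF M) : galF M σ (AL M Q N' hM hcop f) = AL M Q N' hM hcop (galF M σ f) := by
  refine galF_comm_of_jF (AL M Q N' hM hcop : FF M →ₐ[Qb] FF M) ?_ σ f
  intro d
  obtain ⟨v, hv⟩ := exists_ALRel (u := d.1) hcop (by rw [← hM]; exact d.2)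
  have hvM : v ∣ M := by rw [hM]; exact hv.dvd
  have hv0 : NeZero v := ⟨fun h0 => NeZero.ne M (Nat.eq_zero_of_zero_dvd (h0 ▸ hvM))⟩
  exact ⟨v, hv0, hvM, AL_jF M Q N' hM hcop d.1 v d.2 hvM hv⟩

/-- `w_{Q e} ∘ (f ↦ f(q)) = (f ↦ f(q^e)) ∘ w_Q` from level `Q N'` to level `Q e N'`. -/
theorem AL_dg (N M Q N' e : ℕ) [NeZero N] [NeZero M] [NeZero e] (hN : N = Q * N')
    (hM : M = (Q * e) * N') (hcop : Nat.Coprime Q N') (hcop' : Nat.Coprime (Q * e) N')
    (h1 : 1 * N ∣ M) (he : e * N ∣ M) (f : FF N) :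
    AL M (Q * e) N' hM hcop' (dg N M 1 h1 f) = dg N M e he (AL N Q N' hN hcop f) := by
  have : ((AL M (Q * e) N' hM hcop' : FF M →ₐ[Qb] FF M)).comp (dg N M 1 h1)
      = (dg N M e he).comp (AL N Q N' hN hcop : FF N →ₐ[Qb] FF N) := by
    apply algHom_ext_FN
    intro d
    obtain ⟨v, hv⟩ := exists_ALRel (u := d.1) hcop (by rw [← hN]; exact d.2)
    have hvN : v ∣ N := by rw [hN]; exact hv.dvd
    have hv0 : NeZero v := ⟨fun h0 => NeZero.ne N (Nat.eq_zero_of_zero_dvd (h0 ▸ hvN))⟩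
    rw [AlgHom.comp_apply, AlgHom.comp_apply]
    show AL M (Q * e) N' hM hcop' (dg N M 1 h1 (jF N d.1 d.2))
      = dg N M e he (AL N Q N' hN hcop (jF N d.1 d.2))
    rw [AL_jF N Q N' hN hcop d.1 v d.2 hvN hv, dg_jF, dg_jF]
    apply AL_jF
    obtain ⟨x, y, d', hxy, hd', hu, hv'⟩ := hv
    exact ⟨x, e * y, d', by rw [← hxy]; ring, hd', by rw [one_mul, hu], by rw [hv']; ring⟩
  exact AlgHom.congr_fun this f

/-- General form: `w_{Q e e'} ∘ (f ↦ f(q^e)) = (f ↦ f(q^{e'})) ∘ w_Q` from level `Q N'` to level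
`Q e e' N'`. -/
theorem AL_dg' (N M Q N' e e' : ℕ) [NeZero N] [NeZero M] [NeZero e] [NeZero e'] (hN : N = Q * N')
    (hM : M = (Q * e * e') * N') (hcop : Nat.Coprime Q N') (hcop' : Nat.Coprime (Q * e * e') N')
    (he : e * N ∣ M) (he' : e' * N ∣ M) (f : FF N) :
    AL M (Q * e * e') N' hM hcop' (dg N M e he f) = dg N M e' he' (AL N Q N' hN hcop f) := by
  have : ((AL M (Q * e * e') N' hM hcop' : FF M →ₐ[Qb] FF M)).comp (dg N M e he)
      = (dg N M e' he').comp (AL N Q N' hN hcop : FF N →ₐ[Qb] FF N) := by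
    apply algHom_ext_FN
    intro d
    obtain ⟨v, hv⟩ := exists_ALRel (u := d.1) hcop (by rw [← hN]; exact d.2)
    have hvN : v ∣ N := by rw [hN]; exact hv.dvd
    have hv0 : NeZero v := ⟨fun h0 => NeZero.ne N (Nat.eq_zero_of_zero_dvd (h0 ▸ hvN))⟩
    rw [AlgHom.comp_apply, AlgHom.comp_apply]
    show AL M (Q * e * e') N' hM hcop' (dg N M e he (jF N d.1 d.2))
      = dg N M e' he' (AL N Q N' hN hcop (jF N d.1 d.2))
    rw [AL_jF N Q N' hN hcop d.1 v d.2 hvN hv, dg_jF, dg_jF]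
    apply AL_jF
    obtain ⟨x, y, d', hxy, hd', hu, hv'⟩ := hv
    exact ⟨e * x, e' * y, d', by rw [← hxy]; ring, hd', by rw [hu]; ring, by rw [hv']; ring⟩
  exact AlgHom.congr_fun this f

/-- The Fricke involution `j(q^d) ↦ j(q^{M/d})`. -/
def fricke (M : ℕ) [NeZero M] : FF M ≃ₐ[Qb] FF M :=
  AL M M 1 (mul_one M).symm (Nat.coprime_one_right M)

theorem fricke_jF (M u v : ℕ) [NeZero M] [NeZero u] [NeZero v] (hu : u ∣ M) (hv : v ∣ M)
    (h : u * v = M) : fricke M (jF M u hu) = jF M v hv :=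
  AL_jF M M 1 _ _ u v hu hv ⟨u, v, 1, h, dvd_rfl, (mul_one u).symm, (mul_one v).symm⟩

theorem fricke_fricke (M : ℕ) [NeZero M] (f : FF M) : fricke M (fricke M f) = f := AL_AL M M 1 _ _ f

theorem galF_fricke (M : ℕ) [NeZero M] (σ : GQ) (f : FF M) :
    galF M σ (fricke M f) = fricke M (galF M σ f) := galF_AL M M 1 _ _ σ f

theorem fricke_dg (N M e e' : ℕ) [NeZero N] [NeZero M] [NeZero e] [NeZero e']
    (hM : e * e' * N = M) (he : e * N ∣ M) (he' : e' * N ∣ M) (f : FF N) :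
    fricke M (dg N M e he f) = dg N M e' he' (fricke N f) := by
  have : ((fricke M : FF M →ₐ[Qb] FF M)).comp (dg N M e he)
      = (dg N M e' he').comp (fricke N : FF N →ₐ[Qb] FF N) := by
    apply algHom_ext_FN
    intro d
    obtain ⟨c, hc⟩ := d.2
    have hc0 : NeZero c := ⟨fun h0 => NeZero.ne N (by rw [hc, h0, mul_zero])⟩
    rw [AlgHom.comp_apply, AlgHom.comp_apply]
    show fricke M (dg N M e he (jF N d.1 d.2)) = dg N M e' he' (fricke N (jF N d.1 d.2))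
    rw [fricke_jF N d.1 c d.2 ⟨d.1, hc.trans (mul_comm _ _)⟩ hc.symm, dg_jF, dg_jF]
    apply fricke_jF
    calc e * d.1 * (e' * c) = e * e' * (d.1 * c) := by ring
      _ = e * e' * N := by rw [← hc]
      _ = M := hM
  exact AlgHom.congr_fun this f

end

end Fermat.Agent.S36.Norm
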