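import Mathlib
import Fermat.Agent.S24.FF.DegOne
import Fermat.Agent.S26.FF.DVR

/-!
# S36: constant field extensions of function fields are unramified

`K ⊂ Kb` algebraic, characteristic `0`; `FK/K`, `F/Kb` fields with `FK ⊂ F`, `F = FK · Kb`.
If a place `Q` of `F/Kb` lies over a place `P` of `FK/K` then `ord_Q f = ord_P f` for `f ∈ FK`
(`ord_eq_of_over`).  Every place `P` of `FK/K` has a place `Q` over it (`exists_over`).
Consequence (`dvd_ord_of_forall`): `m ∣ ord_Q W` for all places `Q` of `F/Kb` implies `m ∣ ord_P W`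
for all places `P` of `FK/K`.
-/

set_option autoImplicit false
set_option linter.style.haveILetI false

namespace Fermat.Agent.S36.ConstExt

open AlgebraicCurve Polynomial IntermediateField
open Fermat.Agent.S24.FF

variable {K Kb FK F : Type*} [Field K] [Field Kb] [Field FK] [Field F]
  [Algebra K Kb] [Algebra K FK] [Algebra Kb F] [Algebra FK F] [Algebra K F]
  [IsScalarTower K Kb F] [IsScalarTower K FK F]

/-- `Q` lies over `P`. -/
def Over (P : Place K FK) (Q : Place Kb F) : Prop :=
  ∀ f : FK, algebraMap FK F f ∈ Q.toValuationSubring ↔ f ∈ P.toValuationSubring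

variable {P : Place K FK} {Q : Place Kb F}

/-- `O_P → O_Q`. -/
def phiQ (h : Over P Q) : P.toValuationSubring →+* Q.toValuationSubring :=
  ((algebraMap FK F).comp P.toValuationSubring.subtype).codRestrict Q.toValuationSubring.toSubring
    (fun a => (h a).mpr a.2)

omit [Algebra K Kb] [Algebra K F] [IsScalarTower K Kb F] [IsScalarTower K FK F] in
theorem coe_phiQ (h : Over P Q) (a : P.toValuationSubring) :
    ((phiQ h a : Q.toValuationSubring) : F) = algebraMap FK F (a : FK) := rfl

omit [Algebra K Kb] [Algebra K F] [IsScalarTower K Kb F] [IsScalarTower K FK F] in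
theorem isLocalHom_phiQ (h : Over P Q) : IsLocalHom (phiQ h) := by
  refine ⟨fun a ha => ?_⟩
  obtain ⟨b, hb⟩ := ha.exists_right_inv
  have h1 : algebraMap FK F (a : FK) * (b : F) = 1 := congrArg Subtype.val hb
  have ha0 : (a : FK) ≠ 0 := by
    intro h0
    rw [h0, map_zero, zero_mul] at h1
    exact zero_ne_one h1
  have hb' : (b : F) = algebraMap FK F (a : FK)⁻¹ := by
    rw [map_inv₀]
    exact eq_inv_of_mul_eq_one_right h1
  have h2 : (a : FK)⁻¹ ∈ P.toValuationSubring := (h _).mp (hb' ▸ b.2)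
  exact IsUnit.of_mul_eq_one ⟨_, h2⟩ (Subtype.ext (mul_inv_cancel₀ ha0))

theorem phiQ_algebraMap (h : Over P Q) (a : K) :
    phiQ h (algebraMap K P.toValuationSubring a)
      = algebraMap Kb Q.toValuationSubring (algebraMap K Kb a) := by
  apply Subtype.ext
  rw [coe_phiQ, Place.coe_algebraMap, Place.coe_algebraMap, ← IsScalarTower.algebraMap_apply,
    ← IsScalarTower.algebraMap_apply]

local notation "OP" => Place.toValuationSubring P
local notation "OQ" => Place.toValuationSubring Q

/-- The key step. -/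
theorem step [CharZero K] (h : Over P Q) (c : Kb) (hc : IsIntegral K c)
    (t : P.toValuationSubring) (ht : Irreducible t) (G : Polynomial P.toValuationSubring)
    (hG : IsLocalRing.residue Q.toValuationSubring
      (eval₂ (phiQ h) (algebraMap Kb Q.toValuationSubring c) G) = 0) :
    ∃ H G' : Polynomial P.toValuationSubring,
      IsUnit (eval₂ (phiQ h) (algebraMap Kb Q.toValuationSubring c) H) ∧
      eval₂ (phiQ h) (algebraMap Kb Q.toValuationSubring c) H *
        eval₂ (phiQ h) (algebraMap Kb Q.toValuationSubring c) G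
        = phiQ h t * eval₂ (phiQ h) (algebraMap Kb Q.toValuationSubring c) G' := by
  classical
  haveI := isLocalHom_phiQ h
  set cQ : OQ := algebraMap Kb OQ c with hcQ
  let ρ : IsLocalRing.ResidueField OP →+* IsLocalRing.ResidueField OQ :=
    IsLocalRing.ResidueField.map (phiQ h)
  letI : Algebra (IsLocalRing.ResidueField OP) (IsLocalRing.ResidueField OQ) := ρ.toAlgebra
  set cbar : IsLocalRing.ResidueField OQ := IsLocalRing.residue OQ cQ with hcbar
  have key : ∀ G : Polynomial OP, aeval cbar (G.map (IsLocalRing.residue OP))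
      = IsLocalRing.residue OQ (eval₂ (phiQ h) cQ G) := by
    intro G
    rw [aeval_def, eval₂_map, hom_eval₂]
    rfl
  -- the minimal polynomial of `c`
  set hmin := minpoly K c with hhmin
  have hmonic : hmin.Monic := minpoly.monic hc
  have hsep : hmin.Separable := (minpoly.irreducible hc).separable
  set hO : Polynomial OP := hmin.map (algebraMap K OP) with hhO
  have hOmonic : hO.Monic := hmonic.map _
  have hOeval : eval₂ (phiQ h) cQ hO = 0 := by
    rw [hhO, eval₂_map]
    have e1 : (phiQ h).comp (algebraMap K OP) = (algebraMap Kb OQ).comp (algebraMap K Kb) :=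
      RingHom.ext fun a => phiQ_algebraMap h a
    rw [e1, hcQ, ← hom_eval₂, ← aeval_def, minpoly.aeval, map_zero]
  set hP := hO.map (IsLocalRing.residue OP) with hhP
  have hPsep : hP.Separable := by
    rw [hhP, hhO]
    exact (hsep.map).map
  have hPeval : aeval cbar hP = 0 := by rw [hhP, key, hOeval, map_zero]
  have hPmonic : hP.Monic := hOmonic.map _
  have hcbarint : IsIntegral (IsLocalRing.ResidueField OP) cbar := ⟨hP, hPmonic, hPeval⟩
  obtain ⟨h2, hh2⟩ := minpoly.dvd (IsLocalRing.ResidueField OP) cbar hPeval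
  have hh2ne : aeval cbar h2 ≠ 0 := by
    intro h0
    obtain ⟨a, b, hab⟩ := hPsep
    have h3 := congrArg (aeval cbar) hab
    rw [map_add, map_mul, map_mul, hPeval, mul_zero, zero_add, map_one, hh2, derivative_mul,
      map_add, map_mul, map_mul, h0, minpoly.aeval, mul_zero, zero_mul, add_zero, mul_zero] at h3
    exact zero_ne_one h3
  obtain ⟨g1, hg1⟩ := minpoly.dvd (IsLocalRing.ResidueField OP) cbar
    (show aeval cbar (G.map (IsLocalRing.residue OP)) = 0 by rw [key, hG])
  obtain ⟨H, hH⟩ := Polynomial.map_surjective (IsLocalRing.residue OP)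
    IsLocalRing.residue_surjective h2
  have hHunit : IsUnit (eval₂ (phiQ h) cQ H) := by
    rw [← IsLocalRing.residue_ne_zero_iff_isUnit, ← key, hH]
    exact hh2ne
  set r := (H * G) %ₘ hO with hr
  have hreval : eval₂ (phiQ h) cQ H * eval₂ (phiQ h) cQ G = eval₂ (phiQ h) cQ r := by
    have := Polynomial.modByMonic_add_div (H * G) hO
    rw [← eval₂_mul, ← this, eval₂_add, eval₂_mul, hOeval, zero_mul, add_zero]
  have hrmap : r.map (IsLocalRing.residue OP) = 0 := by
    rw [hr, Polynomial.map_modByMonic _ hOmonic, Polynomial.map_mul, hH, hg1,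
      Polynomial.modByMonic_eq_zero_iff_dvd hPmonic, hh2]
    exact ⟨g1, by ring⟩
  have hdvd : C t ∣ r := by
    rw [Polynomial.C_dvd_iff_dvd_coeff]
    intro n
    have h4 : IsLocalRing.residue OP (r.coeff n) = 0 := by
      rw [← Polynomial.coeff_map, hrmap, coeff_zero]
    rw [IsLocalRing.residue_eq_zero_iff, ht.maximalIdeal_eq, Ideal.mem_span_singleton] at h4
    exact h4
  obtain ⟨G', hG'⟩ := hdvd
  refine ⟨H, G', hHunit, ?_⟩
  rw [hreval, hG', eval₂_mul, eval₂_C]

omit [Algebra K Kb] [Algebra K F] [IsScalarTower K Kb F] [IsScalarTower K FK F] in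
theorem ord_algebraMap_eq_zero (h : Over P Q) {u : FK} (hu : P.ord u = 0) :
    Q.ord (algebraMap FK F u) = 0 := by
  have h1 : u ∈ OP := mem_of_ord_nonneg P hu.ge
  have h2 : u⁻¹ ∈ OP := mem_of_ord_nonneg P (by rw [P.ord_inv, hu, neg_zero])
  have h3 := ord_nonneg_of_mem Q ((h u).mpr h1)
  have h4 := ord_nonneg_of_mem Q ((h u⁻¹).mpr h2)
  rw [map_inv₀, Q.ord_inv] at h4
  omega

omit [Algebra K Kb] [Algebra K F] [IsScalarTower K Kb F] [IsScalarTower K FK F] in
theorem ord_algebraMap_of_over (h : Over P Q) {t : FK} (ht : P.ord t = 1) (f : FK) :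
    Q.ord (algebraMap FK F f) = Q.ord (algebraMap FK F t) * P.ord f := by
  rcases eq_or_ne f 0 with rfl | hf
  · simp
  have ht0 : t ≠ 0 := ne_zero_of_ord_ne_zero P (by rw [ht]; exact one_ne_zero)
  set k := P.ord f with hk
  have htk : t ^ k ≠ 0 := zpow_ne_zero _ ht0
  have hu : P.ord (f * (t ^ k)⁻¹) = 0 := by
    rw [P.ord_mul hf (inv_ne_zero htk), P.ord_inv, P.ord_zpow, ht]
    omega
  have h1 := ord_algebraMap_eq_zero h hu
  have hf' : f = f * (t ^ k)⁻¹ * t ^ k := by
    rw [mul_assoc, inv_mul_cancel₀ htk, mul_one]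
  have hι : ∀ x : FK, x ≠ 0 → algebraMap FK F x ≠ 0 := fun x hx =>
    (map_ne_zero (algebraMap FK F)).mpr hx
  conv_lhs => rw [hf']
  rw [map_mul, Q.ord_mul (hι _ (mul_ne_zero hf (inv_ne_zero htk))) (hι _ htk), h1, zero_add,
    map_zpow₀, Q.ord_zpow, mul_comm]

omit [Algebra K Kb] [Algebra K F] [IsScalarTower K Kb F] [IsScalarTower K FK F] in
theorem ord_algebraMap_pos (h : Over P Q) {t : FK} (ht : P.ord t = 1) :
    0 < Q.ord (algebraMap FK F t) := by
  have h1 : t ∈ OP := mem_of_ord_nonneg P (by omega)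
  have h2 : t⁻¹ ∉ OP := fun h0 => by
    have := ord_nonneg_of_mem P h0
    rw [P.ord_inv, ht] at this
    omega
  have h3 := ord_nonneg_of_mem Q ((h t).mpr h1)
  have h4 : ¬ 0 ≤ Q.ord (algebraMap FK F t⁻¹) := fun h0 => h2 ((h _).mp (mem_of_ord_nonneg Q h0))
  rw [map_inv₀, Q.ord_inv] at h4
  omega

omit [Algebra K Kb] [Algebra Kb F] [Algebra FK F] [Algebra K F] [IsScalarTower K Kb F]
  [IsScalarTower K FK F] [Field Kb] [Field F] in
theorem ord_irreducible {t : OP} (ht : Irreducible t) : P.ord (t : FK) = 1 := by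
  rw [Place.ord, P.adicValuation_coe_irreducible ht]
  simp

theorem dvd_ord_eval [CharZero K] (h : Over P Q) (c : Kb) (hc : IsIntegral K c)
    (t : OP) (ht : Irreducible t) (n : ℕ) :
    ∀ G : Polynomial OP, eval₂ (phiQ h) (algebraMap Kb OQ c) G ≠ 0 →
      Q.ord ((eval₂ (phiQ h) (algebraMap Kb OQ c) G : OQ) : F) = n →
      Q.ord (algebraMap FK F (t : FK)) ∣ (n : ℤ) := by
  induction n using Nat.strong_induction_on with
  | _ n ih =>
    intro G hG0 hGn
    rcases Nat.eq_zero_or_pos n with rfl | hn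
    · simp
    have hres : IsLocalRing.residue OQ (eval₂ (phiQ h) (algebraMap Kb OQ c) G) = 0 := by
      rw [DegOne.residue_eq_zero_iff Q hG0, hGn]
      exact_mod_cast hn
    obtain ⟨H, G', hH, hHG⟩ := step h c hc t ht G hres
    have hH0 : eval₂ (phiQ h) (algebraMap Kb OQ c) H ≠ 0 := hH.ne_zero
    have hHord := (DegOne.isUnit_iff_ord_eq_zero Q hH0).mp hH
    have epos := ord_algebraMap_pos h (ord_irreducible ht)
    have ht0 : phiQ h t ≠ 0 := by
      intro h0
      have := congrArg (fun x : OQ => Q.ord (x : F)) h0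
      simp only [coe_phiQ, ZeroMemClass.coe_zero, Place.ord_zero] at this
      omega
    have hG'0 : eval₂ (phiQ h) (algebraMap Kb OQ c) G' ≠ 0 := by
      intro h0
      rw [h0, mul_zero] at hHG
      exact mul_ne_zero hH0 hG0 hHG
    have hcoe : ∀ x : OQ, x ≠ 0 → (x : F) ≠ 0 := fun x hx h0 => hx (Subtype.ext h0)
    have h5 := congrArg (fun x : OQ => Q.ord (x : F)) hHG
    simp only [MulMemClass.coe_mul] at h5
    rw [Q.ord_mul (hcoe _ hH0) (hcoe _ hG0), Q.ord_mul (hcoe _ ht0) (hcoe _ hG'0), hHord, zero_add,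
      hGn, coe_phiQ] at h5
    have h6 := ord_nonneg_of_mem Q (eval₂ (phiQ h) (algebraMap Kb OQ c) G').2
    obtain ⟨n', hn'⟩ := Int.eq_ofNat_of_zero_le h6
    have h7 : n' < n := by
      have : (n' : ℤ) < n := by omega
      exact_mod_cast this
    have h8 := ih n' h7 G' hG'0 hn'
    rw [h5, hn']
    exact dvd_add (dvd_refl _) h8

theorem isIntegral_algebraMap {c : Kb} (hc : IsIntegral K c) :
    IsIntegral FK (algebraMap Kb F c) :=
  (hc.map (IsScalarTower.toAlgHom K Kb F)).tower_top

theorem dvd_ord_of_mem_adjoin [CharZero K] (h : Over P Q) (c : Kb) (hc : IsIntegral K c)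
    (t : OP) (ht : Irreducible t) (z : F) (hz : z ∈ FK⟮algebraMap Kb F c⟯) (hz0 : z ≠ 0) :
    Q.ord (algebraMap FK F (t : FK)) ∣ Q.ord z := by
  have h1 : z ∈ (FK⟮algebraMap Kb F c⟯).toSubalgebra := hz
  rw [IntermediateField.adjoin_simple_toSubalgebra_of_isAlgebraic (isIntegral_algebraMap hc).isAlgebraic,
    Algebra.adjoin_singleton_eq_range_aeval] at h1
  obtain ⟨G, hGz⟩ := h1
  have hGz' : aeval (algebraMap Kb F c) G = z := hGz
  subst hGz'
  obtain ⟨b, hbM, hb⟩ := IsLocalization.integerNormalization_spec (nonZeroDivisors OP) G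
  set G0 := IsLocalization.integerNormalization (nonZeroDivisors OP) G with hG0
  have hb0 : ((b : OP) : FK) ≠ 0 := by
    intro h0
    exact nonZeroDivisors.ne_zero hbM (Subtype.ext h0)
  have heval : ((eval₂ (phiQ h) (algebraMap Kb OQ c) G0 : OQ) : F)
      = algebraMap FK F ((b : OP) : FK) * aeval (algebraMap Kb F c) G := by
    have e1 : ((eval₂ (phiQ h) (algebraMap Kb OQ c) G0 : OQ) : F)
        = eval₂ ((OQ).subtype.comp (phiQ h)) (algebraMap Kb F c) G0 :=
      hom_eval₂ G0 (phiQ h) (OQ).subtype (algebraMap Kb OQ c)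
    have e2 : (OQ).subtype.comp (phiQ h) = (algebraMap FK F).comp (algebraMap OP FK) := rfl
    have e3 : b • G = C ((b : OP) : FK) * G := by
      rw [← smul_eq_C_mul]
      rfl
    rw [e1, e2, ← eval₂_map, hb, ← aeval_def, e3, map_mul, aeval_C]
  have hι : algebraMap FK F ((b : OP) : FK) ≠ 0 := (map_ne_zero (algebraMap FK F)).mpr hb0
  have hne : eval₂ (phiQ h) (algebraMap Kb OQ c) G0 ≠ 0 := by
    intro h0
    rw [h0] at heval
    exact mul_ne_zero hι hz0 heval.symm
  have h6 := ord_nonneg_of_mem Q (eval₂ (phiQ h) (algebraMap Kb OQ c) G0).2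
  obtain ⟨n, hn⟩ := Int.eq_ofNat_of_zero_le h6
  have h7 := dvd_ord_eval h c hc t ht n G0 hne hn
  rw [← hn, heval, Q.ord_mul hι hz0,
    ord_algebraMap_of_over h (ord_irreducible ht) ((b : OP) : FK)] at h7
  exact (dvd_add_right (dvd_mul_right _ _)).mp h7

theorem exists_common [CharZero K] [Algebra.IsAlgebraic K Kb] (c₁ c₂ : Kb) :
    ∃ c : Kb, FK⟮algebraMap Kb F c₁⟯ ≤ FK⟮algebraMap Kb F c⟯ ∧
      FK⟮algebraMap Kb F c₂⟯ ≤ FK⟮algebraMap Kb F c⟯ := by
  haveI : Algebra.IsIntegral K Kb := Algebra.IsAlgebraic.isIntegral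
  let E : IntermediateField K Kb := IntermediateField.adjoin K {c₁, c₂}
  haveI : FiniteDimensional K E :=
    IntermediateField.finiteDimensional_adjoin (fun x _ => Algebra.IsIntegral.isIntegral x)
  obtain ⟨α, hα⟩ := Field.exists_primitive_element K E
  have hE : K⟮(α : Kb)⟯ = E := by
    have := congrArg IntermediateField.lift hα
    rwa [IntermediateField.lift_adjoin_simple, IntermediateField.lift_top] at this
  let T : IntermediateField K Kb :=
    ((FK⟮algebraMap Kb F (α : Kb)⟯).restrictScalars K).comap (IsScalarTower.toAlgHom K Kb F)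
  have hT : E ≤ T := by
    rw [← hE, IntermediateField.adjoin_simple_le_iff]
    exact IntermediateField.mem_adjoin_simple_self FK _
  refine ⟨α, ?_, ?_⟩
  · rw [IntermediateField.adjoin_simple_le_iff]
    exact hT (IntermediateField.subset_adjoin K _ (by simp))
  · rw [IntermediateField.adjoin_simple_le_iff]
    exact hT (IntermediateField.subset_adjoin K _ (by simp))

/-- Every element of `F = FK · Kb` lies in `FK(c)` for some constant `c`. -/
theorem exists_mem_adjoin [CharZero K] [Algebra.IsAlgebraic K Kb]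
    (hgen : ∀ C : Subfield F, (∀ x : FK, algebraMap FK F x ∈ C) →
      (∀ c : Kb, algebraMap Kb F c ∈ C) → C = ⊤) (z : F) :
    ∃ c : Kb, z ∈ FK⟮algebraMap Kb F c⟯ := by
  let C : Subfield F :=
    { carrier := {z | ∃ c : Kb, z ∈ FK⟮algebraMap Kb F c⟯}
      mul_mem' := by
        rintro a b ⟨c₁, h₁⟩ ⟨c₂, h₂⟩
        obtain ⟨c, k₁, k₂⟩ := exists_common (K := K) (FK := FK) (F := F) c₁ c₂
        exact ⟨c, mul_mem (k₁ h₁) (k₂ h₂)⟩
      one_mem' := ⟨0, one_mem _⟩
      add_mem' := by
        rintro a b ⟨c₁, h₁⟩ ⟨c₂, h₂⟩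
        obtain ⟨c, k₁, k₂⟩ := exists_common (K := K) (FK := FK) (F := F) c₁ c₂
        exact ⟨c, add_mem (k₁ h₁) (k₂ h₂)⟩
      zero_mem' := ⟨0, zero_mem _⟩
      neg_mem' := by
        rintro a ⟨c, h⟩
        exact ⟨c, neg_mem h⟩
      inv_mem' := by
        rintro a ⟨c, h⟩
        exact ⟨c, inv_mem h⟩ }
  have hC : C = ⊤ := hgen C (fun x => ⟨0, IntermediateField.algebraMap_mem _ x⟩)
    (fun c => ⟨c, IntermediateField.mem_adjoin_simple_self FK _⟩)
  have : z ∈ C := by rw [hC]; trivial
  exact this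

/-- **Constant field extensions are unramified.** -/
theorem ord_eq_of_over [CharZero K] [Algebra.IsAlgebraic K Kb]
    (hgen : ∀ C : Subfield F, (∀ x : FK, algebraMap FK F x ∈ C) →
      (∀ c : Kb, algebraMap Kb F c ∈ C) → C = ⊤) (h : Over P Q) (f : FK) :
    Q.ord (algebraMap FK F f) = P.ord f := by
  haveI : Algebra.IsIntegral K Kb := Algebra.IsAlgebraic.isIntegral
  obtain ⟨t, ht⟩ := IsDiscreteValuationRing.exists_irreducible OP
  obtain ⟨s, hs⟩ := exists_ord_eq_one Q
  obtain ⟨c, hc⟩ := exists_mem_adjoin (K := K) hgen s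
  have h1 := dvd_ord_of_mem_adjoin h c (Algebra.IsIntegral.isIntegral c) t ht s hc
    (ne_zero_of_ord_ne_zero Q (by rw [hs]; exact one_ne_zero))
  rw [hs] at h1
  have h2 := ord_algebraMap_pos h (ord_irreducible ht)
  have h3 : Q.ord (algebraMap FK F (t : FK)) = 1 := Int.eq_one_of_dvd_one h2.le h1
  rw [ord_algebraMap_of_over h (ord_irreducible ht), h3, one_mul]

/-- Every place of `FK/K` has a place of `F/Kb` over it. -/
theorem exists_over [Algebra.IsAlgebraic K Kb] [S26.FF1 Kb F] (P : Place K FK) :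
    ∃ Q : Place Kb F, Over P Q := by
  haveI : Algebra.IsIntegral K Kb := Algebra.IsAlgebraic.isIntegral
  obtain ⟨B, hB, hloc⟩ := IsLocalRing.exists_factor_valuationRing
    ((algebraMap FK F).comp (Place.toValuationSubring P).subtype)
  have hover : ∀ f : FK, algebraMap FK F f ∈ B ↔ f ∈ Place.toValuationSubring P := by
    intro f
    constructor
    · intro hf
      by_contra hfP
      have hf0 : f ≠ 0 := fun h0 => hfP (h0 ▸ zero_mem _)
      have hinv : f⁻¹ ∈ Place.toValuationSubring P :=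
        ((Place.toValuationSubring P).mem_or_inv_mem f).resolve_left hfP
      have hunit : IsUnit (((algebraMap FK F).comp (Place.toValuationSubring P).subtype).codRestrict
          B.toSubring hB ⟨f⁻¹, hinv⟩) := by
        refine IsUnit.of_mul_eq_one ⟨algebraMap FK F f, hf⟩ (Subtype.ext ?_)
        show algebraMap FK F f⁻¹ * algebraMap FK F f = 1
        rw [← map_mul, inv_mul_cancel₀ hf0, map_one]
      obtain ⟨b, hb⟩ := (hloc.map_nonunit _ hunit).exists_right_inv
      have h1 : f⁻¹ * (b : FK) = 1 := congrArg Subtype.val hb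
      have h2 : (b : FK) = f := by
        have := eq_inv_of_mul_eq_one_right h1
        rwa [inv_inv] at this
      exact hfP (h2 ▸ b.2)
    · intro hf
      exact hB ⟨f, hf⟩
  have hK : ∀ a : K, algebraMap K F a ∈ B.toSubring := by
    intro a
    rw [IsScalarTower.algebraMap_apply K FK F]
    exact (hover _).mpr (P.algebraMap_mem' a)
  have hKb : ∀ c : Kb, algebraMap Kb F c ∈ B := by
    intro c
    letI : Algebra K B := ((algebraMap K F).codRestrict B.toSubring hK).toAlgebra
    haveI : IsScalarTower K B F := IsScalarTower.of_algebraMap_eq fun _ => rfl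
    have h1 : IsIntegral K (algebraMap Kb F c) :=
      (Algebra.IsIntegral.isIntegral (R := K) c).map (IsScalarTower.toAlgHom K Kb F)
    have h2 : IsIntegral B (algebraMap Kb F c) := h1.tower_top
    obtain ⟨y, hy⟩ := IsIntegrallyClosed.isIntegral_iff.mp h2
    rw [← hy]
    exact y.2
  have hne : B ≠ ⊤ := by
    intro htop
    obtain ⟨t, ht⟩ := IsDiscreteValuationRing.exists_irreducible (Place.toValuationSubring P)
    have ht0 : (t : FK) ≠ 0 := fun h0 => ht.ne_zero (Subtype.ext h0)
    have hinv : algebraMap FK F (t : FK)⁻¹ ∈ B := by rw [htop]; trivial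
    have := (hover _).mp hinv
    exact ht.not_isUnit (IsUnit.of_mul_eq_one ⟨_, this⟩ (Subtype.ext (mul_inv_cancel₀ ht0)))
  obtain ⟨Q, hQ⟩ := S26.exists_place_of_valuationSubring B hKb hne
  exact ⟨Q, fun f => by rw [hQ]; exact hover f⟩

/-- **The dictionary**: divisibility of all orders over `Kb` implies divisibility of all orders
over `K`. -/
theorem dvd_ord_of_forall [CharZero K] [Algebra.IsAlgebraic K Kb] [S26.FF1 Kb F]
    (hgen : ∀ C : Subfield F, (∀ x : FK, algebraMap FK F x ∈ C) →
      (∀ c : Kb, algebraMap Kb F c ∈ C) → C = ⊤) (m : ℤ) (W : FK)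
    (hW : ∀ Q : Place Kb F, m ∣ Q.ord (algebraMap FK F W)) (P : Place K FK) : m ∣ P.ord W := by
  obtain ⟨Q, hQ⟩ := exists_over (Kb := Kb) (F := F) P
  rw [← ord_eq_of_over hgen hQ]
  exact hW Q

end Fermat.Agent.S36.ConstExt
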