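import Fermat.Agent.S36.Norm.AtkinLehner
import Fermat.Agent.S24.Packages

/-!
# S36/Norm: generation of the function field of `X₀(M)`

A subfield of `F_M` containing the constants, `j` and `j(q^d)` for `d` in a set `S` of divisors of `M`
with `⋂_{d ∈ S} Γ₀(d) ⊆ Γ₀(M)` (e.g. `lcm S = M`) is everything.
-/

set_option autoImplicit false
set_option linter.style.haveILetI false

open AlgebraicCurve ModularCurve UpperHalfPlane
open scoped MatrixGroups IntermediateField

namespace Fermat.Agent.S36.Norm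

open Fermat.Agent.ES Fermat.Agent.S24

noncomputable section

/-- abstract counting lemma -/
theorem eq_top_of_embeddings {K F Ω ι : Type*} [Field K] [Field F] [Field Ω] [Algebra K F]
    [Algebra K Ω] [FiniteDimensional K F] (C : IntermediateField K F) (σ : ι → F →ₐ[K] Ω)
    (hσ : ∀ a b, (∀ x ∈ C, σ a x = σ b x) → a = b) (hcard : Module.finrank K F ≤ Nat.card ι) :
    C = ⊤ := by
  have hinj : Function.Injective (fun a => (σ a).comp C.val) := by
    intro a b hab
    apply hσ
    intro x hx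
    exact AlgHom.congr_fun hab ⟨x, hx⟩
  have h1 : Nat.card ι ≤ Nat.card (C →ₐ[K] Ω) := Nat.card_le_card_of_injective _ hinj
  have h2 : Nat.card (C →ₐ[K] Ω) ≤ Module.finrank K C := card_algHom_le_finrank _ _ _
  have h3 : Module.finrank K C = Module.finrank K F :=
    le_antisymm (Submodule.finrank_le C.toSubalgebra.toSubmodule) (hcard.trans (h1.trans h2))
  exact IntermediateField.eq_of_le_of_finrank_eq le_top (by rw [h3, IntermediateField.finrank_top'])

theorem subfield_eq_top_of_embeddings {K F Ω ι : Type*} [Field K] [Field F] [Field Ω]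
    [Algebra K F] [Algebra K Ω] (x : F) [FiniteDimensional K⟮x⟯ F] (σ : ι → F →ₐ[K] Ω)
    (hx : ∀ a b, σ a x = σ b x) (C : Subfield F) (hc : ∀ c : K, algebraMap K F c ∈ C)
    (hxC : x ∈ C) (hσ : ∀ a b, (∀ y ∈ C, σ a y = σ b y) → a = b)
    (hcard : Module.finrank K⟮x⟯ F ≤ Nat.card ι) : C = ⊤ := by
  rcases isEmpty_or_nonempty ι with h | ⟨⟨a₀⟩⟩
  · exfalso
    rw [Nat.card_of_isEmpty] at hcard
    have : 0 < Module.finrank K⟮x⟯ F := Module.finrank_pos
    omega
  let _ : Algebra K⟮x⟯ Ω := ((σ a₀).toRingHom.comp (algebraMap K⟮x⟯ F)).toAlgebra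
  have hres : ∀ a, (σ a).comp (K⟮x⟯).val = (σ a₀).comp (K⟮x⟯).val := by
    intro a
    apply IntermediateField.adjoin_algHom_ext
    intro y hy
    rw [Set.mem_singleton_iff] at hy
    subst hy
    exact hx a a₀
  let τ : ι → (F →ₐ[K⟮x⟯] Ω) := fun a =>
    { (σ a).toRingHom with
      commutes' := fun r => DFunLike.congr_fun (hres a) r }
  let CK : IntermediateField K F :=
    { C with algebraMap_mem' := hc }
  have hK1 : K⟮x⟯ ≤ CK := by
    rw [IntermediateField.adjoin_le_iff]
    intro y hy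
    rw [Set.mem_singleton_iff] at hy
    subst hy
    exact hxC
  let C₁ : IntermediateField K⟮x⟯ F :=
    { C with algebraMap_mem' := fun r => hK1 r.2 }
  have htop : C₁ = ⊤ := eq_top_of_embeddings C₁ τ (fun a b hab => hσ a b hab) hcard
  rw [eq_top_iff]
  intro y _
  have : y ∈ C₁ := by rw [htop]; trivial
  exact this

theorem subfield_eq_top (M : ℕ) [NeZero M] (S : Set (Dv M))
    (hS : ∀ g : SL(2, ℤ), (∀ d ∈ S, g ∈ CongruenceSubgroup.Gamma0 d.1) →
      g ∈ CongruenceSubgroup.Gamma0 M)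
    (C : Subfield (FF M)) (hc : ∀ c : Qb, algebraMap Qb (FF M) c ∈ C) (hj : jN M ∈ C)
    (hd : ∀ d ∈ S, jF M d.1 d.2 ∈ C) : C = ⊤ := by
  classical
  obtain ⟨σ, -, hσg⟩ := exists_sigma M Hol (taylorAt UpperHalfPlane.I)
    (taylorAt_injective UpperHalfPlane.I) (Packages.hmem_Hol M)
  have hσj : ∀ a b, σ a (jN M) = σ b (jN M) := by
    intro a b
    induction a using QuotientGroup.induction_on with
    | H g =>
    induction b using QuotientGroup.induction_on with
    | H h =>
    have h2 : jN M = jF M 1 (one_dvd M) := rfl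
    rw [h2, hσg g ⟨1, one_dvd M⟩, hσg h ⟨1, one_dvd M⟩]
    refine congrArg _ (Subtype.ext ?_)
    show compInv g (jd 1) = compInv h (jd 1)
    rw [Packages.jd_one, Packages.compInv_jfun, Packages.compInv_jfun]
  have hsep : ∀ a b, (∀ d ∈ S, σ a (jF M d.1 d.2) = σ b (jF M d.1 d.2)) → a = b := by
    intro a b hab
    induction a using QuotientGroup.induction_on with
    | H g =>
    induction b using QuotientGroup.induction_on with
    | H h =>
    rw [QuotientGroup.eq]
    have h3 : h⁻¹ * g ∈ CongruenceSubgroup.Gamma0 M := by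
      apply hS
      intro d hdS
      have h1 := hab d hdS
      rw [hσg g d, hσg h d] at h1
      have h2 : compInv g (jd d.1) = compInv h (jd d.1) :=
        congrArg Subtype.val (taylorAt_injective UpperHalfPlane.I h1)
      apply mem_Gamma0_of_jd_smul d.1
      intro τ
      have := congrFun h2 (g • τ)
      simp only [compInv, inv_smul_smul] at this
      rw [mul_smul, ← this]
    have := inv_mem h3
    simpa using this
  haveI := finiteDimensional_FN M
  refine subfield_eq_top_of_embeddings (jN M) σ hσj C hc hj ?_ (by rw [finrank_FN])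
  intro a b hab
  apply hsep
  intro d hdS
  exact hab _ (hd d hdS)

/-- `lcm`-form of the hypothesis for two divisors. -/
theorem mem_Gamma0_of_lcm {M d₁ d₂ : ℕ} (h : M ∣ Nat.lcm d₁ d₂) (g : SL(2, ℤ))
    (h₁ : g ∈ CongruenceSubgroup.Gamma0 d₁) (h₂ : g ∈ CongruenceSubgroup.Gamma0 d₂) :
    g ∈ CongruenceSubgroup.Gamma0 M := by
  rw [CongruenceSubgroup.Gamma0_mem, ZMod.intCast_zmod_eq_zero_iff_dvd] at h₁ h₂ ⊢
  exact Int.natCast_dvd.mpr (h.trans (Nat.lcm_dvd (Int.natCast_dvd.mp h₁) (Int.natCast_dvd.mp h₂)))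

theorem subfield_eq_top_of_lcm (M d₁ d₂ : ℕ) [NeZero M] [NeZero d₁] [NeZero d₂] (h₁ : d₁ ∣ M)
    (h₂ : d₂ ∣ M) (h : M ∣ Nat.lcm d₁ d₂)
    (C : Subfield (FF M)) (hc : ∀ c : Qb, algebraMap Qb (FF M) c ∈ C) (hj : jN M ∈ C)
    (hd₁ : jF M d₁ h₁ ∈ C) (hd₂ : jF M d₂ h₂ ∈ C) : C = ⊤ := by
  refine subfield_eq_top M {⟨d₁, h₁⟩, ⟨d₂, h₂⟩} ?_ C hc hj ?_
  · intro g hg
    exact mem_Gamma0_of_lcm h g (hg ⟨d₁, h₁⟩ (by simp)) (hg ⟨d₂, h₂⟩ (by simp))
  · intro d hd
    rcases hd with rfl | hd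
    · exact hd₁
    · rw [Set.mem_singleton_iff] at hd
      subst hd
      exact hd₂

end

end Fermat.Agent.S36.Norm
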