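import Fermat.Agent.S36.Norm.Kum
import Fermat.Agent.ES.B.ToD

/-!
# S36/Norm: the norm maps commute with the Hecke operators `T_r`, `r ∤ M`
-/

set_option autoImplicit false
set_option linter.style.haveILetI false

open AlgebraicCurve ModularCurve

namespace Fermat.Agent.S36.Norm

open Fermat.Agent.ES Fermat.Agent.S24

noncomputable section

theorem heckeF_eq (N r : ℕ) [NeZero N] [NeZero r] (hr : r.Prime) (hrN : ¬ r ∣ N)
    (h1 : 1 * N ∣ N * r) (hr' : r * N ∣ N * r) (f : FF N) :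
    heckeF N r hr hrN f = nmF N (N * r) 1 h1 (dg N (N * r) r hr' f) := by
  apply Subtype.ext
  rw [coe_heckeF, heckeSer_eq_heckeNorm N r hr hrN f]
  congr 1
  unfold nmF
  rw [dg_eq_alpha]
  rfl

theorem psi_mul_prime (N r : ℕ) [NeZero N] (hr : r.Prime) (hrN : ¬ r ∣ N) :
    dedekindPsi (N * r) = (r + 1) * dedekindPsi N := by
  rw [mul_comm N r, Gamma0Comb.dedekindPsi_mul_of_not_dvd (NeZero.ne N) hr hrN]

/-- The abstract statement: `Nm ∘ T_r = T_r ∘ Nm` on functions, given generation. -/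
theorem nmF_heckeF_of_gen (N M e r : ℕ) [NeZero N] [NeZero M] [NeZero e] [NeZero r]
    (h : e * N ∣ M) (hr : r.Prime) (hrM : ¬ r ∣ M) (hrN : ¬ r ∣ N)
    (ha₁ : e * (N * r) ∣ M * r) (hb₁ : r * M ∣ M * r)
    (hgen : ∀ C : Subfield (FF (M * r)), (∀ x, dg (N * r) (M * r) e ha₁ x ∈ C) →
      (∀ y, dg M (M * r) r hb₁ y ∈ C) → C = ⊤) (f : FF M) :
    nmF N M e h (heckeF M r hr hrM f) = heckeF N r hr hrN (nmF N M e h f) := by
  have k1 : 1 * M ∣ M * r := by rw [one_mul]; exact dvd_mul_right M r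
  have k2 : 1 * N ∣ N * r := by rw [one_mul]; exact dvd_mul_right N r
  have k3 : r * N ∣ N * r := by rw [mul_comm]
  have k4 : 1 * e * N ∣ M * r := by rw [one_mul]; exact h.trans (dvd_mul_right M r)
  have k5 : e * 1 * N ∣ M * r := by rw [mul_one]; exact h.trans (dvd_mul_right M r)
  rw [heckeF_eq M r hr hrM k1 hb₁, heckeF_eq N r hr hrN k2 k3,
    nmF_nmF N M (M * r) e 1 h k1 k4,
    ← nmF_baseChange N M (N * r) (M * r) e r h k3 ha₁ hb₁
      (by rw [psi_mul_prime M r hr hrM, psi_mul_prime N r hr hrN]; ring) hgen,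
    nmF_nmF N (N * r) (M * r) 1 e k2 ha₁ k5]
  exact DFunLike.congr_fun (nmF_congr N (M * r) _ _ (by ring) k4 k5) _

/-- `e = 1`. -/
theorem nmF_heckeF_one (N M r : ℕ) [NeZero N] [NeZero M] [NeZero r]
    (h : 1 * N ∣ M) (hr : r.Prime) (hrM : ¬ r ∣ M) (hrN : ¬ r ∣ N) (f : FF M) :
    nmF N M 1 h (heckeF M r hr hrM f) = heckeF N r hr hrN (nmF N M 1 h f) := by
  have ha₁ : 1 * (N * r) ∣ M * r := by
    rw [one_mul] at h ⊢; exact mul_dvd_mul_right h r
  have hb₁ : r * M ∣ M * r := by rw [mul_comm]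
  refine nmF_heckeF_of_gen N M 1 r h hr hrM hrN ha₁ hb₁ ?_ f
  intro C hC₁ hC₂
  have hMr : r * M ∣ M * r := hb₁
  apply subfield_eq_top_of_lcm (M * r) (r * M) (r * M) hMr hMr (by rw [Nat.lcm_self, mul_comm])
  · intro c
    have := hC₂ (algebraMap Qb (FF M) c)
    rwa [AlgHom.commutes] at this
  · have := hC₁ (jN (N * r))
    have e1 : dg (N * r) (M * r) 1 ha₁ (jN (N * r)) = jN (M * r) :=
      Subtype.ext (coe_dg_one _ _ _ _)
    rwa [e1] at this
  · have := hC₂ (jF M M dvd_rfl)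
    rwa [dg_jF] at this
  · have := hC₂ (jF M M dvd_rfl)
    rwa [dg_jF] at this

/-- `M = e N`. -/
theorem nmF_heckeF_top (N M e r : ℕ) [NeZero N] [NeZero M] [NeZero e] [NeZero r]
    (hM : e * N = M) (h : e * N ∣ M) (hr : r.Prime) (hrM : ¬ r ∣ M) (hrN : ¬ r ∣ N) (f : FF M) :
    nmF N M e h (heckeF M r hr hrM f) = heckeF N r hr hrN (nmF N M e h f) := by
  have ha₁ : e * (N * r) ∣ M * r := by rw [← mul_assoc, hM]
  have hb₁ : r * M ∣ M * r := by rw [mul_comm]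
  refine nmF_heckeF_of_gen N M e r h hr hrM hrN ha₁ hb₁ ?_ f
  intro C hC₁ hC₂
  have hre : Nat.Coprime r e := by
    rw [Nat.Prime.coprime_iff_not_dvd hr]
    intro hd
    exact hrM (hM ▸ hd.mul_right N)
  apply subfield_eq_top_of_lcm' (M * r) e r (N * r) M (by rw [← hM]; ring) (by ring)
  · rw [← hM, mul_comm N r, mul_comm e N, mul_comm r N, Nat.lcm_mul_left, hre.lcm_eq_mul]
    exact dvd_of_eq (by ring)
  · intro c
    have := hC₂ (algebraMap Qb (FF M) c)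
    rwa [AlgHom.commutes] at this
  · have := hC₂ (jF M M dvd_rfl)
    rw [dg_jF] at this
    exact (jF_congr' (M * r) _ _ (mul_comm r M)) ▸ this
  · have := hC₁ (jF (N * r) 1 (one_dvd _))
    rw [dg_jF] at this
    exact (jF_congr' (M * r) _ _ (mul_one e)) ▸ this
  · have := hC₂ (jF M 1 (one_dvd _))
    rw [dg_jF] at this
    exact (jF_congr' (M * r) _ _ (mul_one r)) ▸ this

/-- Both cases. -/
theorem nmF_heckeF (N M e r : ℕ) [NeZero N] [NeZero M] [NeZero e] [NeZero r]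
    (h : e * N ∣ M) (he : e = 1 ∨ e * N = M) (hr : r.Prime) (hrM : ¬ r ∣ M) (hrN : ¬ r ∣ N)
    (f : FF M) :
    nmF N M e h (heckeF M r hr hrM f) = heckeF N r hr hrN (nmF N M e h f) := by
  rcases he with rfl | he
  · exact nmF_heckeF_one N M r h hr hrM hrN f
  · exact nmF_heckeF_top N M e r he h hr hrM hrN f

theorem Nm_heckeKum (N M e r m : ℕ) [NeZero N] [NeZero M] [NeZero e] [NeZero r]
    (h : e * N ∣ M) (he : e = 1 ∨ e * N = M) (hr : r.Prime) (hrM : ¬ r ∣ M) (hrN : ¬ r ∣ N)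
    (x : Kum M m) :
    Nm N M e h m (heckeKum M r hr hrM m x) = heckeKum N r hr hrN m (Nm N M e h m x) := by
  obtain ⟨f, rfl⟩ := Kum.mk_surjective x
  rw [heckeKum_mk, Nm_mk, Nm_mk, heckeKum_mk]
  refine congrArg Kum.mk (Subtype.ext (Units.ext ?_))
  exact nmF_heckeF N M e r h he hr hrM hrN _

/-- A good prime for `M` is a good prime for a divisor `N` of `M`. -/
def resGP {N M : ℕ} (h : N ∣ M) (ℓ : D.GoodPrime M) : D.GoodPrime N :=
  ⟨ℓ.1, ℓ.2.1, fun hd => ℓ.2.2 (hd.trans h)⟩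

theorem Nm_heckeT (N M e m : ℕ) [NeZero N] [NeZero M] [NeZero e]
    (h : e * N ∣ M) (he : e = 1 ∨ e * N = M) (hNM : N ∣ M) (ℓ : D.GoodPrime M) (x : Kum M m) :
    Nm N M e h m (heckeT M m ℓ x) = heckeT N m (resGP hNM ℓ) (Nm N M e h m x) := by
  haveI : NeZero ℓ.1 := ⟨ℓ.2.1.ne_zero⟩
  exact Nm_heckeKum N M e ℓ.1 m h he ℓ.2.1 ℓ.2.2 (resGP hNM ℓ).2.2 x

/-- **(N6)** polynomials in the Hecke operators. -/
theorem Nm_lift (N M e m : ℕ) [NeZero N] [NeZero M] [NeZero e]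
    (h : e * N ∣ M) (he : e = 1 ∨ e * N = M) (hNM : N ∣ M) (P : FreeAlgebra ℤ (D.GoodPrime M))
    (x : Kum M m) :
    Nm N M e h m (FreeAlgebra.lift ℤ (heckeT M m) P x)
      = FreeAlgebra.lift ℤ (fun ℓ => heckeT N m (resGP hNM ℓ)) P (Nm N M e h m x) := by
  induction P using FreeAlgebra.induction generalizing x with
  | grade0 n =>
    rw [AlgHom.commutes, AlgHom.commutes, Module.algebraMap_end_apply, Module.algebraMap_end_apply,
      map_zsmul]
  | grade1 ℓ =>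
    rw [FreeAlgebra.lift_ι_apply, FreeAlgebra.lift_ι_apply]
    exact Nm_heckeT N M e m h he hNM ℓ x
  | mul a b ha hb =>
    rw [map_mul, map_mul, Module.End.mul_apply, Module.End.mul_apply, ha, hb]
  | add a b ha hb =>
    rw [map_add, map_add, LinearMap.add_apply, LinearMap.add_apply, map_add, ha, hb]

end

end Fermat.Agent.S36.Norm
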