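import Fermat.Agent.S36.Norm.Gen
import Fermat.Agent.ES.B.Module

/-!
# S36/Norm: norm and pull-back maps between the Kummer modules of different levels

* `nmF N M e h : FF M →* FF N`   : field norm along `dg N M e h` (`f(q) ↦ f(q^e)`)
* `Nm N M e h m : Kum M m →+ Kum N m`, `Pb N M e h m : Kum N m →+ Kum M m`
* `Nm_Pb`            : `Nm (Pb x) = deg • x`
* `galKum_Nm`, `galKum_Pb` : Galois equivariance
* `degHom_dg`        : `ψ(N) * deg = ψ(M)`
* `nmF_baseChange`   : base change squares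
-/

set_option autoImplicit false
set_option linter.style.haveILetI false
set_option linter.unusedSectionVars false

open AlgebraicCurve ModularCurve
open scoped IntermediateField

namespace Fermat.Agent.S36.Norm

open Fermat.Agent.ES Fermat.Agent.S24

noncomputable section

/-- A homomorphism `(FF M)ˣ →* (FF N)ˣ` mapping `Dm M m` to `Dm N m` induces `Kum M m →+ Kum N m`. -/
def kumMap {M N m : ℕ} (φ : (FF M)ˣ →* (FF N)ˣ) (hD : ∀ f ∈ Dm M m, φ f ∈ Dm N m) :
    Kum M m →+ Kum N m :=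
  MonoidHom.toAdditive (QuotientGroup.map _ _
    ((φ.comp (Dm M m).subtype).codRestrict (Dm N m) (fun f => hD f f.2)) (by
      rintro ⟨f, hf⟩ hfP
      rw [Subgroup.mem_subgroupOf] at hfP
      obtain ⟨h, hh⟩ := hfP
      rw [Subgroup.mem_comap, Subgroup.mem_subgroupOf]
      refine ⟨φ h, ?_⟩
      have hh' : h ^ m = f := hh
      show φ h ^ m = φ f
      rw [← map_pow, hh']))

theorem kumMap_mk {M N m : ℕ} (φ : (FF M)ˣ →* (FF N)ˣ) (hD : ∀ f ∈ Dm M m, φ f ∈ Dm N m)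
    (f : Dm M m) : kumMap φ hD (Kum.mk f) = Kum.mk ⟨φ f, hD f f.2⟩ := rfl

section

variable (N M e : ℕ) [NeZero N] [NeZero M] [NeZero e] (h : e * N ∣ M)

/-- The field norm `F_M → F_N` along `f(q) ↦ f(q^e)`. -/
def nmF : FF M →* FF N := normHom (dg N M e h).toRingHom

/-- The norm on units. -/
def nmU : (FF M)ˣ →* (FF N)ˣ := Units.map (nmF N M e h)

/-- The pull-back on units. -/
def pbU : (FF N)ˣ →* (FF M)ˣ := Units.map ((dg N M e h : FF N →ₐ[Qb] FF M) : FF N →* FF M)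

@[simp] theorem coe_nmU (f : (FF M)ˣ) : ((nmU N M e h f : (FF N)ˣ) : FF N) = nmF N M e h f := rfl

@[simp] theorem coe_pbU (f : (FF N)ˣ) : ((pbU N M e h f : (FF M)ˣ) : FF M) = dg N M e h f := rfl

theorem integral_dg : (dg N M e h).toRingHom.IsIntegral :=
  H1Degree.isIntegral_of_finiteAlong _ (finHom_dg N M e h)

variable {m : ℕ}

theorem nmU_mem_Dm {f : (FF M)ˣ} (hf : f ∈ Dm M m) : nmU N M e h f ∈ Dm N m := by
  intro P
  letI := algebraAlong (dg N M e h)
  haveI := isScalarTower_along (dg N M e h)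
  haveI : Module.Finite (FF N) (FF M) := finHom_dg N M e h
  exact dvd_ord_norm m (f : FF M) f.ne_zero hf P

theorem pbU_mem_Dm {f : (FF N)ˣ} (hf : f ∈ Dm N m) : pbU N M e h f ∈ Dm M m := by
  intro Q
  rw [coe_pbU, Place.ord_restrictAlong (dg N M e h) (integral_dg N M e h) Q (f : FF N)]
  exact Dvd.dvd.mul_left (hf _) _

variable (m)

/-- The norm (push-forward) `Kum M m → Kum N m` along `f(q) ↦ f(q^e)`. -/
def Nm : Kum M m →+ Kum N m := kumMap (nmU N M e h) (fun _ hf => nmU_mem_Dm N M e h hf)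

/-- The pull-back `Kum N m → Kum M m` along `f(q) ↦ f(q^e)`. -/
def Pb : Kum N m →+ Kum M m := kumMap (pbU N M e h) (fun _ hf => pbU_mem_Dm N M e h hf)

variable {m}

theorem Nm_mk (f : Dm M m) :
    Nm N M e h m (Kum.mk f) = Kum.mk ⟨nmU N M e h f, nmU_mem_Dm N M e h f.2⟩ := rfl

theorem Pb_mk (f : Dm N m) :
    Pb N M e h m (Kum.mk f) = Kum.mk ⟨pbU N M e h f, pbU_mem_Dm N M e h f.2⟩ := rfl

/-- `Nm x = 0` in terms of a representative. -/
theorem Nm_mk_eq_zero_iff (f : Dm M m) :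
    Nm N M e h m (Kum.mk f) = 0 ↔ ∃ g : (FF N)ˣ, (g : FF N) ^ m = nmF N M e h ((f : (FF M)ˣ) : FF M) := by
  rw [Nm_mk, Kum.mk_eq_zero_iff]
  constructor
  · rintro ⟨g, hg⟩
    exact ⟨g, by simpa using congrArg (fun u : (FF N)ˣ => (u : FF N)) hg⟩
  · rintro ⟨g, hg⟩
    exact ⟨g, Units.ext (by simpa using hg)⟩

theorem nmF_dg (f : FF N) : nmF N M e h (dg N M e h f) = f ^ degHom (dg N M e h).toRingHom :=
  normHom_map (dg N M e h).toRingHom f

theorem Nm_Pb (x : Kum N m) :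
    Nm N M e h m (Pb N M e h m x) = degHom (dg N M e h).toRingHom • x := by
  obtain ⟨f, rfl⟩ := Kum.mk_surjective x
  rw [Pb_mk, Nm_mk, ← Kum.mk_pow]
  refine congrArg Kum.mk (Subtype.ext (Units.ext ?_))
  exact nmF_dg N M e h _

/-- Galois equivariance of the norm, on functions. -/
theorem galF_nmF (σ : GQ) (f : FF M) : galF N σ (nmF N M e h f) = nmF N M e h (galF M σ f) :=
  normHom_equiv (dg N M e h).toRingHom (dg N M e h).toRingHom (galF N σ) (galF M σ)
    (fun x => (galF_dg N M e h σ x).symm) f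

theorem galKum_Nm (σ : GQ) (x : Kum M m) :
    galKum N m σ (Nm N M e h m x) = Nm N M e h m (galKum M m σ x) := by
  obtain ⟨f, rfl⟩ := Kum.mk_surjective x
  rw [Nm_mk, galKum_mk, galKum_mk, Nm_mk]
  refine congrArg Kum.mk (Subtype.ext (Units.ext ?_))
  exact galF_nmF N M e h σ _

theorem galKum_Pb (σ : GQ) (x : Kum N m) :
    galKum M m σ (Pb N M e h m x) = Pb N M e h m (galKum N m σ x) := by
  obtain ⟨f, rfl⟩ := Kum.mk_surjective x
  rw [Pb_mk, galKum_mk, galKum_mk, Pb_mk]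
  refine congrArg Kum.mk (Subtype.ext (Units.ext ?_))
  exact galF_dg N M e h σ _

end

/-! ### transitivity -/

theorem nmF_nmF (N M M' e e' : ℕ) [NeZero N] [NeZero M] [NeZero M'] [NeZero e] [NeZero e']
    (h : e * N ∣ M) (h' : e' * M ∣ M') (h'' : e' * e * N ∣ M') (f : FF M') :
    nmF N M e h (nmF M M' e' h' f) = nmF N M' (e' * e) h'' f := by
  unfold nmF
  rw [normHom_comp]
  have : (dg M M' e' h').toRingHom.comp (dg N M e h).toRingHom = (dg N M' (e' * e) h'').toRingHom :=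
    RingHom.ext fun x => dg_dg N M M' e e' h h' h'' x
  rw [this]

theorem nmF_congr (N M e e' : ℕ) [NeZero N] [NeZero M] [NeZero e] [NeZero e'] (he : e = e')
    (h : e * N ∣ M) (h' : e' * N ∣ M) : nmF N M e h = nmF N M e' h' := by
  subst he; rfl

/-! ### degrees -/

theorem dedekindPsi_pos (N : ℕ) [NeZero N] : 0 < dedekindPsi N := by
  have h1 : Module.finrank Qb⟮S24.jN N⟯ (FF N) = dedekindPsi N :=
    (S24.finrank_FN N).trans (Gamma0Comb.index_Gamma0 N)
  rw [← h1]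
  haveI := S24.finiteDimensional_FN N
  exact Module.finrank_pos

theorem degHom_dg_mul (N e : ℕ) [NeZero N] [NeZero e] (h : e * N ∣ e * N) (h1 : 1 * N ∣ e * N) :
    degHom (dg N (e * N) e h).toRingHom = degHom (dg N (e * N) 1 h1).toRingHom :=
  (degHom_equiv (dg N (e * N) 1 h1).toRingHom (dg N (e * N) e h).toRingHom
    (fricke N).toRingEquiv (fricke (e * N)).toRingEquiv
    (fun x => (fricke_dg N (e * N) 1 e (by ring) h1 h x).symm)).symm

theorem degHom_dg (N M e : ℕ) [NeZero N] [NeZero M] [NeZero e] (h : e * N ∣ M) :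
    dedekindPsi N * degHom (dg N M e h).toRingHom = dedekindPsi M := by
  have h1 : (dg N M e h).toRingHom
      = (dg (e * N) M 1 (by rwa [one_mul])).toRingHom.comp (dg N (e * N) e dvd_rfl).toRingHom := by
    refine RingHom.ext fun x => ?_
    have := dg_dg N (e * N) M e 1 dvd_rfl (by rwa [one_mul]) (by rwa [one_mul]) x
    refine Eq.trans ?_ this.symm
    exact AlgHom.congr_fun (dg_congr N M e (1 * e) (one_mul e).symm h (by rwa [one_mul])) x
  rw [h1, degHom_comp, degHom_dg_mul N e dvd_rfl (by rw [one_mul]; exact dvd_mul_left N e),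
    ← mul_assoc, degHom_dg_one, degHom_dg_one]

/-! ### transport by Fricke -/

theorem fricke_nmF (N M e e' : ℕ) [NeZero N] [NeZero M] [NeZero e] [NeZero e']
    (hM : e * e' * N = M) (he : e * N ∣ M) (he' : e' * N ∣ M) (f : FF M) :
    fricke N (nmF N M e he f) = nmF N M e' he' (fricke M f) :=
  normHom_equiv (dg N M e he).toRingHom (dg N M e' he').toRingHom (fricke N).toRingEquiv
    (fricke M).toRingEquiv (fun x => (fricke_dg N M e e' hM he he' x).symm) f

/-! ### generation, dual form -/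

theorem subfield_eq_top_of_lcm' (M c₁ c₂ d₁ d₂ : ℕ) [NeZero M] [NeZero c₁] [NeZero c₂]
    (h₁ : c₁ * d₁ = M) (h₂ : c₂ * d₂ = M) (h : M ∣ Nat.lcm d₁ d₂)
    (C : Subfield (FF M)) (hc : ∀ c : Qb, algebraMap Qb (FF M) c ∈ C)
    (hj : jF M M dvd_rfl ∈ C)
    (hd₁ : jF M c₁ ⟨d₁, h₁.symm⟩ ∈ C) (hd₂ : jF M c₂ ⟨d₂, h₂.symm⟩ ∈ C) : C = ⊤ := by
  have hd₁0 : NeZero d₁ := ⟨fun h0 => NeZero.ne M (by rw [← h₁, h0, mul_zero])⟩
  have hd₂0 : NeZero d₂ := ⟨fun h0 => NeZero.ne M (by rw [← h₂, h0, mul_zero])⟩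
  have key : C.map (fricke M : FF M →+* FF M) = ⊤ := by
    apply subfield_eq_top_of_lcm M d₁ d₂ ⟨c₁, by rw [← h₁, mul_comm]⟩ ⟨c₂, by rw [← h₂, mul_comm]⟩ h
    · intro c
      exact ⟨algebraMap Qb (FF M) c, hc c, (fricke M).commutes c⟩
    · exact ⟨_, hj, fricke_jF M M 1 dvd_rfl (one_dvd M) (mul_one M)⟩
    · exact ⟨_, hd₁, fricke_jF M c₁ d₁ _ _ h₁⟩
    · exact ⟨_, hd₂, fricke_jF M c₂ d₂ _ _ h₂⟩
  rw [eq_top_iff]
  intro x _
  have : fricke M x ∈ C.map (fricke M : FF M →+* FF M) := by rw [key]; trivial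
  obtain ⟨y, hy, hyx⟩ := this
  have : y = x := (fricke M).injective hyx
  rwa [← this]

/-! ### base change -/

theorem nmF_baseChange (N E N₁ E₁ ea eb : ℕ) [NeZero N] [NeZero E] [NeZero N₁] [NeZero E₁]
    [NeZero ea] [NeZero eb] (ha : ea * N ∣ E) (hb : eb * N ∣ N₁) (ha₁ : ea * N₁ ∣ E₁)
    (hb₁ : eb * E ∣ E₁) (hdeg : dedekindPsi E₁ * dedekindPsi N = dedekindPsi E * dedekindPsi N₁)
    (hgen : ∀ C : Subfield (FF E₁), (∀ x, dg N₁ E₁ ea ha₁ x ∈ C) → (∀ y, dg E E₁ eb hb₁ y ∈ C) →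
      C = ⊤) (x : FF E) :
    nmF N₁ E₁ ea ha₁ (dg E E₁ eb hb₁ x) = dg N N₁ eb hb (nmF N E ea ha x) := by
  refine normHom_baseChange (dg N E ea ha).toRingHom (dg N N₁ eb hb).toRingHom
    (dg N₁ E₁ ea ha₁).toRingHom (dg E E₁ eb hb₁).toRingHom ?_ (finHom_dg N E ea ha)
    (finHom_dg N₁ E₁ ea ha₁) ?_ hgen x
  · intro y
    show dg N₁ E₁ ea ha₁ (dg N N₁ eb hb y) = dg E E₁ eb hb₁ (dg N E ea ha y)
    have h1 : ea * eb * N ∣ E₁ := by
      rw [mul_assoc]; exact (mul_dvd_mul_left ea hb).trans ha₁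
    have h2 : eb * ea * N ∣ E₁ := by rwa [mul_comm eb ea]
    rw [dg_dg N N₁ E₁ eb ea hb ha₁ h1, dg_dg N E E₁ ea eb ha hb₁ h2]
    exact AlgHom.congr_fun (dg_congr N E₁ _ _ (mul_comm ea eb) h1 h2) y
  · have e1 := degHom_dg N E ea ha
    have e2 := degHom_dg N₁ E₁ ea ha₁
    have hpos : 0 < dedekindPsi N * dedekindPsi N₁ :=
      Nat.mul_pos (dedekindPsi_pos N) (dedekindPsi_pos N₁)
    apply Nat.eq_of_mul_eq_mul_left hpos
    calc dedekindPsi N * dedekindPsi N₁ * degHom (dg N₁ E₁ ea ha₁).toRingHom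
        = dedekindPsi N * (dedekindPsi N₁ * degHom (dg N₁ E₁ ea ha₁).toRingHom) := by ring
      _ = dedekindPsi E₁ * dedekindPsi N := by rw [e2]; ring
      _ = dedekindPsi E * dedekindPsi N₁ := hdeg
      _ = dedekindPsi N * degHom (dg N E ea ha).toRingHom * dedekindPsi N₁ := by rw [e1]
      _ = dedekindPsi N * dedekindPsi N₁ * degHom (dg N E ea ha).toRingHom := by ring

end

end Fermat.Agent.S36.Norm
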