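import Fermat.Agent.S36.Norm.Hecke

/-!
# S36/Norm: `q`-expansion of the norm along `V_l` when `l ∣ N`; auxiliary level

* `Vq_nmF` : for `l` prime, `l ∣ N`, `f ∈ F_{lN}`:  `(Nm_{V_l} f)(q^l) = ∏_{z^l = 1} f(z q)`
* `coe_nmF` : `Nm_{V_l} f = normSer l f`
* `Nm_Pb_one`, `Nm_Pb_top` : compatibility of the norms with the pull-back to an auxiliary level
-/

set_option autoImplicit false
set_option linter.style.haveILetI false

open AlgebraicCurve ModularCurve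

namespace Fermat.Agent.S36.Norm

open Fermat.Agent.ES Fermat.Agent.S24

noncomputable section

theorem psi_mul_prime_dvd (N l : ℕ) [NeZero N] (hl : l.Prime) (hlN : l ∣ N) :
    dedekindPsi (l * N) = l * dedekindPsi N :=
  Gamma0Comb.dedekindPsi_mul_of_dvd (NeZero.ne N) hl hlN

theorem degHom_dg_prime_dvd (N M e l : ℕ) [NeZero N] [NeZero M] [NeZero e] (hl : l.Prime)
    (hlN : l ∣ N) (hM : M = l * N) (h : e * N ∣ M) : degHom (dg N M e h).toRingHom = l := by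
  have h1 := degHom_dg N M e h
  have h2 : dedekindPsi M = dedekindPsi N * l := by
    rw [hM, psi_mul_prime_dvd N l hl hlN, mul_comm l]
  rw [h2] at h1
  exact Nat.eq_of_mul_eq_mul_left (dedekindPsi_pos N) h1

theorem Vq_nmF (N M l : ℕ) [NeZero N] [NeZero M] [NeZero l] (hl : l.Prime) (hlN : l ∣ N)
    (hM : M = l * N) (h : l * N ∣ M) (f : FF M) :
    Vq Qb l ((nmF N M l h f : FF N) : LaurentSeries Qb) = twistProd l (f : LaurentSeries Qb) := by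
  classical
  have key := normHom_eq_prod (dg N M l h).toRingHom (finHom_dg N M l h)
    ((Vq Qb l).comp (H1.co N))
    (fun z : rootsOfUnity l Qb => (twist (z : Qbˣ)).comp (H1.co M)) ?_ ?_ ?_ f
  · exact key
  · intro z x
    show twist (z : Qbˣ) (Vq Qb l (x : LaurentSeries Qb)) = Vq Qb l (x : LaurentSeries Qb)
    exact twist_Vq l (z : Qbˣ) ((mem_rootsOfUnity _ _).mp z.2) _
  · intro z z' hzz
    have h1 := RingHom.congr_fun hzz (S24.jN M)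
    have h2 : twist (z : Qbˣ) ((S24.jN M : FF M) : LaurentSeries Qb)
        = twist (z' : Qbˣ) ((S24.jN M : FF M) : LaurentSeries Qb) := h1
    have h3 := congrArg (fun s : LaurentSeries Qb => s.coeff (-1)) h2
    simp only [twist_coeff, H1.coeff_jN, mul_one] at h3
    have h4 : ((z : Qbˣ) ^ (-1 : ℤ)) = ((z' : Qbˣ) ^ (-1 : ℤ)) := Units.ext h3
    rw [zpow_neg_one, zpow_neg_one, inv_inj] at h4
    exact Subtype.ext h4
  · rw [H1.card_roots, degHom_dg_prime_dvd N M l l hl hlN hM h]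

theorem coe_nmF (N M l : ℕ) [NeZero N] [NeZero M] [NeZero l] (hl : l.Prime) (hlN : l ∣ N)
    (hM : M = l * N) (h : l * N ∣ M) (f : FF M) :
    ((nmF N M l h f : FF N) : LaurentSeries Qb) = normSer l (f : LaurentSeries Qb) := by
  rw [normSer, ← Vq_nmF N M l hl hlN hM h f, contract_Vq]

/-! ### auxiliary level -/

/-- Norm along the inclusion and pull-back to an auxiliary level. -/
theorem nmF_dg_one (N E N₁ E₁ : ℕ) [NeZero N] [NeZero E] [NeZero N₁] [NeZero E₁]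
    (ha : 1 * N ∣ E) (hb : 1 * N ∣ N₁) (ha₁ : 1 * N₁ ∣ E₁) (hb₁ : 1 * E ∣ E₁)
    (hdeg : dedekindPsi E₁ * dedekindPsi N = dedekindPsi E * dedekindPsi N₁)
    (hlcm : E₁ ∣ Nat.lcm N₁ E) (x : FF E) :
    nmF N₁ E₁ 1 ha₁ (dg E E₁ 1 hb₁ x) = dg N N₁ 1 hb (nmF N E 1 ha x) := by
  refine nmF_baseChange N E N₁ E₁ 1 1 ha hb ha₁ hb₁ hdeg ?_ x
  intro C hC₁ hC₂
  have k1 : N₁ ∣ E₁ := by rwa [one_mul] at ha₁
  have k2 : E ∣ E₁ := by rwa [one_mul] at hb₁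
  apply subfield_eq_top_of_lcm E₁ N₁ E k1 k2 hlcm
  · intro c
    have := hC₂ (algebraMap Qb (FF E) c)
    rwa [AlgHom.commutes] at this
  · have := hC₂ (jN E)
    have e1 : dg E E₁ 1 hb₁ (jN E) = jN E₁ := Subtype.ext (coe_dg_one _ _ _ _)
    rwa [e1] at this
  · have := hC₁ (jF N₁ N₁ dvd_rfl)
    rw [dg_jF] at this
    exact (jF_congr' E₁ _ _ (one_mul N₁)) ▸ this
  · have := hC₂ (jF E E dvd_rfl)
    rw [dg_jF] at this
    exact (jF_congr' E₁ _ _ (one_mul E)) ▸ this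

/-- Norm along `V_e` (`E = e N`) and pull-back to an auxiliary level. -/
theorem nmF_dg_top (N E N₁ E₁ e : ℕ) [NeZero N] [NeZero E] [NeZero N₁] [NeZero E₁] [NeZero e]
    (ha : e * N ∣ E) (hb : 1 * N ∣ N₁) (ha₁ : e * N₁ ∣ E₁) (hb₁ : 1 * E ∣ E₁)
    (hdeg : dedekindPsi E₁ * dedekindPsi N = dedekindPsi E * dedekindPsi N₁)
    (hE₁ : e * N₁ = E₁) (x : FF E) :
    nmF N₁ E₁ e ha₁ (dg E E₁ 1 hb₁ x) = dg N N₁ 1 hb (nmF N E e ha x) := by
  refine nmF_baseChange N E N₁ E₁ e 1 ha hb ha₁ hb₁ hdeg ?_ x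
  intro C hC₁ hC₂
  apply subfield_eq_top_of_lcm' E₁ 1 1 E₁ E₁ (one_mul _) (one_mul _) (by rw [Nat.lcm_self])
  · intro c
    have := hC₂ (algebraMap Qb (FF E) c)
    rwa [AlgHom.commutes] at this
  · have := hC₁ (jF N₁ N₁ dvd_rfl)
    rw [dg_jF] at this
    exact (jF_congr' E₁ _ _ hE₁) ▸ this
  · have := hC₂ (jN E)
    have e1 : dg E E₁ 1 hb₁ (jN E) = jN E₁ := Subtype.ext (coe_dg_one _ _ _ _)
    rwa [e1] at this
  · have := hC₂ (jN E)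
    have e1 : dg E E₁ 1 hb₁ (jN E) = jN E₁ := Subtype.ext (coe_dg_one _ _ _ _)
    rwa [e1] at this

theorem Nm_Pb_one (N E N₁ E₁ m : ℕ) [NeZero N] [NeZero E] [NeZero N₁] [NeZero E₁]
    (ha : 1 * N ∣ E) (hb : 1 * N ∣ N₁) (ha₁ : 1 * N₁ ∣ E₁) (hb₁ : 1 * E ∣ E₁)
    (hdeg : dedekindPsi E₁ * dedekindPsi N = dedekindPsi E * dedekindPsi N₁)
    (hlcm : E₁ ∣ Nat.lcm N₁ E) (x : Kum E m) :
    Nm N₁ E₁ 1 ha₁ m (Pb E E₁ 1 hb₁ m x) = Pb N N₁ 1 hb m (Nm N E 1 ha m x) := by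
  obtain ⟨f, rfl⟩ := Kum.mk_surjective x
  rw [Pb_mk, Nm_mk, Nm_mk, Pb_mk]
  refine congrArg Kum.mk (Subtype.ext (Units.ext ?_))
  exact nmF_dg_one N E N₁ E₁ ha hb ha₁ hb₁ hdeg hlcm _

theorem Nm_Pb_top (N E N₁ E₁ e m : ℕ) [NeZero N] [NeZero E] [NeZero N₁] [NeZero E₁] [NeZero e]
    (ha : e * N ∣ E) (hb : 1 * N ∣ N₁) (ha₁ : e * N₁ ∣ E₁) (hb₁ : 1 * E ∣ E₁)
    (hdeg : dedekindPsi E₁ * dedekindPsi N = dedekindPsi E * dedekindPsi N₁)
    (hE₁ : e * N₁ = E₁) (x : Kum E m) :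
    Nm N₁ E₁ e ha₁ m (Pb E E₁ 1 hb₁ m x) = Pb N N₁ 1 hb m (Nm N E e ha m x) := by
  obtain ⟨f, rfl⟩ := Kum.mk_surjective x
  rw [Pb_mk, Nm_mk, Nm_mk, Pb_mk]
  refine congrArg Kum.mk (Subtype.ext (Units.ext ?_))
  exact nmF_dg_top N E N₁ E₁ e ha hb ha₁ hb₁ hdeg hE₁ _

end

end Fermat.Agent.S36.Norm
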